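/-
S45, project CARAYOL-K, block IND (owner helper41; ruling D1 = report #1706).
DEFINITIONS AND CONTRACTS OF THE ASSEMBLY  `Gen + Base + PtsBase + Lvl0J ⟹ ModelK at every level k + 2 ≥ 3`.

Everything is stated on the abstract tower `T : S45.Mod.Tower K` (helper18).
THE COORDINATE OF THE MODEL IS `x = j(z) = T.da k T.j` (as in the S36 instance and in `Pts/Defs.lean`).
THE INDEX OF A COMPONENT IS `b` = NUMBER OF LETTERS `V` (type `F^(k-b) V^b`), as in `Tab/Defs.lean`, `Pts/Defs.lean`.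

* `st T k i : T.F 1 → T.F (k+1)` (`i ≤ k`), `ww T k i : T.F 2 → T.F (k+2)` (`i ≤ k`) : `f(z) ↦ f(q^i z)` (steps, windows);
* `Fam T`      : a family of valuation rings `W k b` and of uniformisers `ϖ k b` at all the levels (junk for `b > k`);
* `TabOut`     : THE CONTRACT OF BLOCK TAB (TAB1 = helper117, TAB2 = helper87), in the language of `Mod.Tower`;
* `Lvl0J`      : the level-`0` input of block QEP for the coordinate `j`;
* `PtsBase`    : the point data of the levels `0, 1, 2` (MOD M4/M5), = `Pts.B0`, `Pts.B1`, `Pts.B2` on the tower;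
* `PtsOut`     : the two fields `pts₁`, `pts₂` of `ModelK`;
* `NodeTab`, `NodePre`, `NodePts` : the three named inputs of `Ind/Main.lean`.
-/
import Fermat.Agent.BAD.LevelQ.Defs
import Fermat.Agent.S45.Mod.Tower
import Fermat.Agent.S45.Pts.Defs

set_option autoImplicit false

noncomputable section

namespace Fermat.Agent.S45.Ind

open Fermat.Agent.S18 Fermat.Agent.S36.BP Fermat.Agent.S45.K Fermat.Agent.S45.Mod
  Fermat.Agent.BAD.LevelQ IntermediateField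

variable {K : Type} [Field K] (T : Tower K)

/-- THE STEP `i`: `f(z) ↦ f(q^i z)`, from level `1` to level `k + 1` (`i ≤ k`; junk for `i > k`). -/
def st : ∀ k : ℕ, ℕ → (T.F 1 →ₐ[K] T.F (k + 1))
  | 0, _ => AlgHom.id K _
  | k + 1, i => if i ≤ k then (T.al (k + 1)).comp (st k i) else (T.be (k + 1)).comp (st k k)

/-- THE WINDOW `i`: `f(z) ↦ f(q^i z)`, from level `2` to level `k + 2` (`i ≤ k`; junk for `i > k`). -/
def ww : ∀ k : ℕ, ℕ → (T.F 2 →ₐ[K] T.F (k + 2))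
  | 0, _ => AlgHom.id K _
  | k + 1, i => if i ≤ k then (T.al (k + 2)).comp (ww k i) else (T.be (k + 2)).comp (ww k k)

/-- A family of valuation rings and of uniformisers at all the levels. -/
structure Fam where
  W : ∀ k, ℕ → ValuationSubring (T.F k)
  ϖ : ∀ k, ℕ → T.F k

variable {T}

/-- the vertical valuation rings of level `k`, indexed by `Fin (k + 1)` -/
def Fam.V (fam : Fam T) (k : ℕ) : Fin (k + 1) → ValuationSubring (T.F k) := fun c => fam.W k c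

/-- the uniformisers of level `k`, indexed by `Fin (k + 1)` -/
def Fam.pi (fam : Fam T) (k : ℕ) : Fin (k + 1) → T.F k := fun c => fam.ϖ k c

variable (T)

/-- **THE CONTRACT OF BLOCK TAB.**  `W k b` = the vertical valuation ring of type `F^(k-b) V^b` of level `k ≥ 1`. -/
structure TabOut (q : ℕ) (V0 : ValuationSubring (T.F 0)) (V1 : Fin 2 → ValuationSubring (T.F 1))
    (V2 : Fin 3 → ValuationSubring (T.F 2)) (fam : Fam T) : Prop where
  /-- the levels `1`, `2` are those of `Tower.Base` -/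
  lvl1 : ∀ c : Fin 2, fam.W 1 c = V1 c
  lvl2 : ∀ c : Fin 3, fam.W 2 c = V2 c
  -- TAB1 (`Tab.Table`, `Tab.Compat`, `Tab.Pair`)
  complete : ∀ k, 1 ≤ k → ∀ W' : ValuationSubring (T.F k),
    W'.comap (T.da k : T.F 0 →+* T.F k) = V0 → ∃ b ≤ k, W' = fam.W k b
  inj : ∀ k, 1 ≤ k → ∀ b ≤ k, ∀ b' ≤ k, fam.W k b = fam.W k b' → b = b'
  unif : ∀ k, 1 ≤ k → ∀ b ≤ k, IsUnif (fam.W k b) (fam.ϖ k b)
  ram : ∀ k, 1 ≤ k → ∀ b ≤ k, ∃ e : ℕ, 1 ≤ e ∧ e ≤ q ^ k ∧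
    (fam.W k b).valuation (fam.ϖ k b) ^ e = (fam.W k b).valuation (q : T.F k)
  unif_zero : ∀ k, 1 ≤ k → fam.ϖ k 0 = (q : T.F k)
  unif_top : ∀ k, 1 ≤ k → fam.ϖ k k = (q : T.F k)
  /-- `α` forgets the last letter, `β` the first one -/
  resA : ∀ k, 1 ≤ k → ∀ b ≤ k + 1, (fam.W (k + 1) b).comap (T.al k).toRingHom = fam.W k (b - 1)
  resB : ∀ k, 1 ≤ k → ∀ b ≤ k + 1, (fam.W (k + 1) b).comap (T.be k).toRingHom = fam.W k (min b k)
  /-- every vertical valuation of level `k + 1 ≥ 3` is radicial for `α` or for `β` -/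
  rad : ∀ k, 2 ≤ k → ∀ b ≤ k + 1, Rad q (T.Na k) (fam.W (k + 1) b) ∨ Rad q (T.Nb k) (fam.W (k + 1) b)
  /-- `F^(k+1)` is radicial for `β`, `V^(k+1)` is radicial for `α` (level `k + 1 ≥ 2`) -/
  radB : ∀ k, 1 ≤ k → Rad q (T.Nb k) (fam.W (k + 1) 0)
  radA : ∀ k, 1 ≤ k → Rad q (T.Na k) (fam.W (k + 1) (k + 1))
  -- TAB2
  /-- residue degree one over level `0`, via `δ₀` if `2 b ≤ k`, via `δ_k` if `k ≤ 2 b` -/
  dense_lo : ∀ k, 1 ≤ k → ∀ b ≤ k, 2 * b ≤ k → ∀ y ∈ fam.W k b,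
    ∃ y₀ : T.F 0, (fam.W k b).valuation (T.da k y₀ - y) < 1
  dense_hi : ∀ k, 1 ≤ k → ∀ b ≤ k, k ≤ 2 * b → ∀ y ∈ fam.W k b,
    ∃ y₀ : T.F 0, (fam.W k b).valuation (T.db k y₀ - y) < 1
  /-- the explicit uniformiser `j(q^(a+m) z) / j(q^(a-m) z) - 1`, `a = k - b`, `m = min b a` -/
  unif_mid : ∀ k b, 0 < b → b < k →
    IsUnif (fam.W k b) (T.dd k (k - b + min b (k - b)) T.j / T.dd k (k - b - min b (k - b)) T.j - 1)

/-- **The level-`0` input of block QEP, coordinate `j`** (the inputs of `S36.Inst.preModel`). -/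
structure Lvl0J (A₀ : ValuationSubring K) (q : ℕ) (V0 : ValuationSubring (T.F 0)) : Prop where
  vert : IsVert A₀ (q : K) V0 K⟮T.j⟯
  coord : IsMCoord A₀ V0 T.j
  j_unit : V0.valuation T.j = 1

/-- **The point data of the levels `0`, `1`, `2`** (MOD M4/M5). -/
def PtsBase (A₀ : ValuationSubring K) (q : ℕ) (V0 : ValuationSubring (T.F 0))
    (V1 : Fin 2 → ValuationSubring (T.F 1)) (V2 : Fin 3 → ValuationSubring (T.F 2)) : Prop :=
  ∃ (t : T.F 0) (x₁ : T.F 1) (w1 : T.F 1 →ₐ[K] T.F 1) (cf : ℕ → ℕ → K) (κ : T.F 2)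
    (e : Fin 4 → T.F 2),
    (∀ k, Pts.B0 A₀ q V0 T.j T.x₀ t (T.F k)) ∧
    Pts.B1 A₀ q (T.al 0) (T.be 0) V1 T.j t x₁ w1 cf ∧
    Pts.B2 q (T.al 0) (T.be 0) (T.al 1) (T.be 1) V2 T.j t x₁ κ e

/-- `j(qz)` and `j(z)` are integral over each other (modular equation; MOD). -/
def JInt (A₀ : ValuationSubring K) : Prop :=
  T.be 0 T.j ∈ chart A₀.toSubring (T.al 0 T.j) ∧ T.al 0 T.j ∈ chart A₀.toSubring (T.be 0 T.j)

end Fermat.Agent.S45.Ind

namespace Fermat.Agent.S45.Ind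

open Fermat.Agent.S18 Fermat.Agent.S36.BP Fermat.Agent.S45.K Fermat.Agent.S45.Mod

/-- **The two fields `pts₁`, `pts₂` of `ModelK`.** -/
def PtsOut {K₀ F : Type*} [Field K₀] [Field F] [Algebra K₀ F] (A₀ : ValuationSubring K₀) (q : ℕ)
    (x : F) {κ : Type*} (V : κ → ValuationSubring F) (Nα Nβ N₀ : F →* F) : Prop :=
  (∀ (𝔫 : Ideal (chart A₀.toSubring x)) [𝔫.IsMaximal], (q : chart A₀.toSubring x) ∈ 𝔫 →
    PtHypK V Nα Nβ N₀ (locSub (chart A₀.toSubring x) 𝔫)) ∧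
  (∀ (𝔫 : Ideal (chart A₀.toSubring x⁻¹)) [𝔫.IsMaximal], (q : chart A₀.toSubring x⁻¹) ∈ 𝔫 →
    PtHypK V Nα Nβ N₀ (locSub (chart A₀.toSubring x⁻¹) 𝔫))

/-- **Node PTS** (owner helper219): the interface of `Pts/Defs.lean` gives the closed points, level `k ≥ 3`. -/
def NodePts : Prop :=
  ∀ (K₀ F₀ F₁ F₂ F : Type) [Field K₀] [Field F₀] [Field F₁] [Field F₂] [Field F]
    [Algebra K₀ F₀] [Algebra K₀ F₁] [Algebra K₀ F₂] [Algebra K₀ F]
    (A₀ : ValuationSubring K₀) (q k : ℕ) (al0 be0 : F₀ →ₐ[K₀] F₁) (al1 be1 : F₁ →ₐ[K₀] F₂)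
    (V0 : ValuationSubring F₀) (V1 : Fin 2 → ValuationSubring F₁) (V2 : Fin 3 → ValuationSubring F₂)
    (V : Fin (k + 1) → ValuationSubring F) (j x₀ t : F₀) (x₁ : F₁) (w1 : F₁ →ₐ[K₀] F₁)
    (cf : ℕ → ℕ → K₀) (κ : F₂) (e : Fin 4 → F₂)
    (d : ℕ → F₀ →ₐ[K₀] F) (st : ℕ → F₁ →ₐ[K₀] F) (w : ℕ → F₂ →ₐ[K₀] F)
    (Eα : Subfield F) (Nα Nβ N₀ : F →* F), 3 ≤ k →
    Pts.PreModelK A₀ q (d 0 j) V → Pts.Geo A₀ k al0 be0 al1 be1 V0 V1 V2 V j d st w →
    Pts.B0 A₀ q V0 j x₀ t F → Pts.B1 A₀ q al0 be0 V1 j t x₁ w1 cf →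
    Pts.B2 q al0 be0 al1 be1 V2 j t x₁ κ e → Pts.Top A₀ q k V j d Eα Nα Nβ N₀ →
    PtsOut A₀ q (d 0 j) V Nα Nβ N₀

/-- **Node TAB** (owners helper117 = TAB1, helper87 = TAB2). -/
def NodeTab : Prop :=
  ∀ (K : Type) [Field K] (T : Tower K) (A₀ : ValuationSubring K) (q : ℕ)
    (V0 : ValuationSubring (T.F 0)) (V1 : Fin 2 → ValuationSubring (T.F 1))
    (V2 : Fin 3 → ValuationSubring (T.F 2)), T.Gen q → T.Base A₀ q V0 V1 V2 →
    PtsBase T A₀ q V0 V1 V2 → ∃ fam : Fam T, TabOut T q V0 V1 V2 fam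

/-- **Node PRE** (owner helper113): the global part of the model, coordinate `j`. -/
def NodePre : Prop :=
  ∀ (K : Type) [Field K] (T : Tower K) (A₀ : ValuationSubring K) (q : ℕ)
    (V0 : ValuationSubring (T.F 0)), BaseHyp A₀ q → T.Gen q → Lvl0J T A₀ q V0 →
    ∀ (k : ℕ) (κ : Type) [Nonempty κ] (V : κ → ValuationSubring (T.F k)), Function.Injective V →
      (∀ c, ∃ ϖ : T.F k, IsUnif (V c) ϖ) →
      (∀ c, (V c).comap (T.da k : T.F 0 →+* T.F k) = V0) →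
      (∀ W : ValuationSubring (T.F k), W.comap (T.da k : T.F 0 →+* T.F k) = V0 → ∃ c, W = V c) →
      Pts.PreModelK A₀ q (T.da k T.j) V

end Fermat.Agent.S45.Ind

end
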