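/-
S45, project CARAYOL-K, block IND (helper41).  THE MAPS OF THE TOWER: steps `st`, windows `ww`, `dd`.
-/
import Fermat.Agent.S45.Ind.Defs

set_option autoImplicit false

noncomputable section

namespace Fermat.Agent.S45.Ind

open Fermat.Agent.S45.Mod

variable {K : Type} [Field K] (T : Tower K) {q : ℕ}

theorem st_zero (i : ℕ) (y : T.F 1) : st T 0 i y = y := rfl

theorem st_succ_of_le {k i : ℕ} (h : i ≤ k) (y : T.F 1) :
    st T (k + 1) i y = T.al (k + 1) (st T k i y) := by
  rw [st, if_pos h]; rfl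

theorem st_succ_self (k : ℕ) (y : T.F 1) :
    st T (k + 1) (k + 1) y = T.be (k + 1) (st T k k y) := by
  rw [st, if_neg (by omega)]; rfl

theorem ww_zero (i : ℕ) (y : T.F 2) : ww T 0 i y = y := rfl

theorem ww_succ_of_le {k i : ℕ} (h : i ≤ k) (y : T.F 2) :
    ww T (k + 1) i y = T.al (k + 2) (ww T k i y) := by
  rw [ww, if_pos h]; rfl

theorem ww_succ_self (k : ℕ) (y : T.F 2) :
    ww T (k + 1) (k + 1) y = T.be (k + 2) (ww T k k y) := by
  rw [ww, if_neg (by omega)]; rfl

theorem dd_zero_right (k : ℕ) (y : T.F 0) : T.dd k 0 y = T.da k y := by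
  induction k with
  | zero => rfl
  | succ k ih => rw [T.dd_succ_of_le (Nat.zero_le k), ih, T.da_succ]

theorem dd_self (k : ℕ) (y : T.F 0) : T.dd k k y = T.db k y := by
  induction k with
  | zero => rfl
  | succ k ih => rw [T.dd_succ_self, ih, T.db_succ]

variable {T}

theorem st_al (G : T.Gen q) {k i : ℕ} (h : i ≤ k) (y : T.F 0) :
    st T k i (T.al 0 y) = T.dd (k + 1) i y := by
  induction k generalizing i with
  | zero =>
    obtain rfl : i = 0 := by omega
    rw [st_zero, T.dd_succ_of_le le_rfl]; rfl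
  | succ k ih =>
    rcases Nat.lt_or_ge k i with h1 | h1
    · obtain rfl : i = k + 1 := by omega
      rw [st_succ_self, ih le_rfl, T.dd_succ_of_le le_rfl, ← G.comm, ← T.dd_succ_self,
        T.dd_succ_of_le le_rfl]
    · rw [st_succ_of_le T h1, ih h1, T.dd_succ_of_le (k := k + 1) (by omega)]

theorem st_be (G : T.Gen q) {k i : ℕ} (h : i ≤ k) (y : T.F 0) :
    st T k i (T.be 0 y) = T.dd (k + 1) (i + 1) y := by
  induction k generalizing i with
  | zero =>
    obtain rfl : i = 0 := by omega
    rw [st_zero, T.dd_succ_self]; rfl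
  | succ k ih =>
    rcases Nat.lt_or_ge k i with h1 | h1
    · obtain rfl : i = k + 1 := by omega
      rw [st_succ_self, ih le_rfl, T.dd_succ_self (k + 1)]
    · rw [st_succ_of_le T h1, ih h1, T.dd_succ_of_le (k := k + 1) (by omega)]

theorem ww_al (G : T.Gen q) {k i : ℕ} (h : i ≤ k) (y : T.F 1) :
    ww T k i (T.al 1 y) = st T (k + 1) i y := by
  induction k generalizing i with
  | zero =>
    obtain rfl : i = 0 := by omega
    rw [ww_zero, st_succ_of_le T le_rfl]; rfl
  | succ k ih =>
    rcases Nat.lt_or_ge k i with h1 | h1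
    · obtain rfl : i = k + 1 := by omega
      rw [ww_succ_self, ih le_rfl, st_succ_of_le T le_rfl, ← G.comm, ← st_succ_self,
        st_succ_of_le T le_rfl]
    · rw [ww_succ_of_le T h1, ih h1, st_succ_of_le T (k := k + 1) (by omega)]

theorem ww_be (G : T.Gen q) {k i : ℕ} (h : i ≤ k) (y : T.F 1) :
    ww T k i (T.be 1 y) = st T (k + 1) (i + 1) y := by
  induction k generalizing i with
  | zero =>
    obtain rfl : i = 0 := by omega
    rw [ww_zero, st_succ_self]; rfl
  | succ k ih =>
    rcases Nat.lt_or_ge k i with h1 | h1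
    · obtain rfl : i = k + 1 := by omega
      rw [ww_succ_self, ih le_rfl, st_succ_self T (k + 1)]
    · rw [ww_succ_of_le T h1, ih h1, st_succ_of_le T (k := k + 1) (by omega)]

end Fermat.Agent.S45.Ind

end
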