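/-
S45, project CARAYOL-K, block IND (helper41).  THE RESTRICTIONS OF THE VERTICAL VALUATIONS along `dd`, `st`, `ww`
(letters and windows), from `TabOut.resA`, `TabOut.resB`, `TabOut.lvl1`, `TabOut.lvl2`.
-/
import Fermat.Agent.S45.Ind.Maps

set_option autoImplicit false

noncomputable section

namespace Fermat.Agent.S45.Ind

open Fermat.Agent.S45.Mod Fermat.Agent.S45.Pts

theorem comap_algHom_comp {R A B C : Type*} [CommSemiring R] [Field A] [Field B] [Field C]
    [Algebra R A] [Algebra R B] [Algebra R C] (W : ValuationSubring C) (f : A →ₐ[R] C)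
    (g : B →ₐ[R] C) (h : A →ₐ[R] B) (e : ∀ y, f y = g (h y)) :
    W.comap (f : A →+* C) = (W.comap (g : B →+* C)).comap (h : A →+* B) := by
  ext y
  show f y ∈ W ↔ g (h y) ∈ W
  rw [e]

variable {K : Type} [Field K] {T : Tower K} {q : ℕ} {A₀ : ValuationSubring K}
  {V0 : ValuationSubring (T.F 0)} {V1 : Fin 2 → ValuationSubring (T.F 1)}
  {V2 : Fin 3 → ValuationSubring (T.F 2)} {fam : Fam T}

theorem comap_dd (B : T.Base A₀ q V0 V1 V2) (H : TabOut T q V0 V1 V2 fam) :
    ∀ k b i, b ≤ k + 1 → i ≤ k + 1 →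
      (fam.W (k + 1) b).comap (T.dd (k + 1) i : T.F 0 →+* T.F (k + 1)) = V0
  | 0, b, i, hb, hi => by
    have hW : fam.W 1 b = V1 ⟨b, by omega⟩ := H.lvl1 ⟨b, by omega⟩
    rw [hW]
    rcases Nat.eq_zero_or_pos i with rfl | h
    · rw [← B.comap_al1 ⟨b, by omega⟩]
      ext y
      show T.dd (0 + 1) 0 y ∈ V1 ⟨b, by omega⟩ ↔ T.al 0 y ∈ V1 ⟨b, by omega⟩
      rw [T.dd_succ_of_le le_rfl]; rfl
    · obtain rfl : i = 1 := by omega
      rw [← B.comap_be1 ⟨b, by omega⟩]
      ext y
      show T.dd (0 + 1) (0 + 1) y ∈ V1 ⟨b, by omega⟩ ↔ T.be 0 y ∈ V1 ⟨b, by omega⟩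
      rw [T.dd_succ_self]; rfl
  | k + 1, b, i, hb, hi => by
    rcases Nat.lt_or_ge (k + 1) i with h | h
    · obtain rfl : i = k + 2 := by omega
      rw [comap_algHom_comp _ (T.dd (k + 2) (k + 2)) (T.be (k + 1)) (T.dd (k + 1) (k + 1))
        (fun y => T.dd_succ_self (k + 1) y)]
      have := H.resB (k + 1) (by omega) b hb
      rw [show (fam.W (k + 2) b).comap ((T.be (k + 1) : T.F (k + 1) →+* T.F (k + 2))) =
        fam.W (k + 1) (min b (k + 1)) from this]
      exact comap_dd B H k _ _ (by omega) le_rfl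
    · rw [comap_algHom_comp _ (T.dd (k + 2) i) (T.al (k + 1)) (T.dd (k + 1) i)
        (fun y => T.dd_succ_of_le h y)]
      have := H.resA (k + 1) (by omega) b hb
      rw [show (fam.W (k + 2) b).comap ((T.al (k + 1) : T.F (k + 1) →+* T.F (k + 2))) =
        fam.W (k + 1) (b - 1) from this]
      exact comap_dd B H k _ _ (by omega) h

theorem comap_st (H : TabOut T q V0 V1 V2 fam) :
    ∀ k b i, b ≤ k + 1 → i ≤ k →
      (fam.W (k + 1) b).comap (st T k i : T.F 1 →+* T.F (k + 1)) = V1 (sty (k + 1) b i)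
  | 0, b, i, hb, hi => by
    obtain rfl : i = 0 := by omega
    have hW : fam.W 1 b = V1 ⟨b, by omega⟩ := H.lvl1 ⟨b, by omega⟩
    have e : (fam.W 1 b).comap (st T 0 0 : T.F 1 →+* T.F 1) = fam.W 1 b := by
      ext y; rfl
    rw [e, hW]
    congr 1
    unfold sty
    rcases Nat.eq_zero_or_pos b with rfl | h
    · rfl
    · obtain rfl : b = 1 := by omega
      rfl
  | k + 1, b, i, hb, hi => by
    rcases Nat.lt_or_ge k i with h | h
    · obtain rfl : i = k + 1 := by omega
      rw [comap_algHom_comp _ (st T (k + 1) (k + 1)) (T.be (k + 1)) (st T k k)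
        (fun y => st_succ_self T k y)]
      have := H.resB (k + 1) (by omega) b hb
      rw [show (fam.W (k + 2) b).comap ((T.be (k + 1) : T.F (k + 1) →+* T.F (k + 2))) =
        fam.W (k + 1) (min b (k + 1)) from this, comap_st H k _ _ (by omega) le_rfl]
      congr 1
      unfold sty
      simp only [show (k + min b (k + 1) < k + 1) ↔ (k + 1 + b < k + 1 + 1) from by omega]
    · rw [comap_algHom_comp _ (st T (k + 1) i) (T.al (k + 1)) (st T k i)
        (fun y => st_succ_of_le T h y)]
      have := H.resA (k + 1) (by omega) b hb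
      rw [show (fam.W (k + 2) b).comap ((T.al (k + 1) : T.F (k + 1) →+* T.F (k + 2))) =
        fam.W (k + 1) (b - 1) from this, comap_st H k _ _ (by omega) h]
      congr 1
      unfold sty
      simp only [show (i + (b - 1) < k + 1) ↔ (i + b < k + 1 + 1) from by omega]

theorem comap_ww (H : TabOut T q V0 V1 V2 fam) :
    ∀ k b i, b ≤ k + 2 → i ≤ k →
      (fam.W (k + 2) b).comap (ww T k i : T.F 2 →+* T.F (k + 2)) = V2 (wty (k + 2) b i)
  | 0, b, i, hb, hi => by
    obtain rfl : i = 0 := by omega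
    have hW : fam.W 2 b = V2 ⟨b, by omega⟩ := H.lvl2 ⟨b, by omega⟩
    have e : (fam.W 2 b).comap (ww T 0 0 : T.F 2 →+* T.F 2) = fam.W 2 b := by
      ext y; rfl
    rw [e, hW]
    congr 1
    unfold wty
    interval_cases b <;> rfl
  | k + 1, b, i, hb, hi => by
    rcases Nat.lt_or_ge k i with h | h
    · obtain rfl : i = k + 1 := by omega
      rw [comap_algHom_comp _ (ww T (k + 1) (k + 1)) (T.be (k + 2)) (ww T k k)
        (fun y => ww_succ_self T k y)]
      have := H.resB (k + 2) (by omega) b hb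
      rw [show (fam.W (k + 3) b).comap ((T.be (k + 2) : T.F (k + 2) →+* T.F (k + 3))) =
        fam.W (k + 2) (min b (k + 2)) from this, comap_ww H k _ _ (by omega) le_rfl]
      congr 1
      unfold wty
      simp only [show (k + 1 + min b (k + 2) < k + 2) ↔ (k + 1 + 1 + b < k + 1 + 2) from by omega,
        show (k + min b (k + 2) < k + 2) ↔ (k + 1 + b < k + 1 + 2) from by omega]
    · rw [comap_algHom_comp _ (ww T (k + 1) i) (T.al (k + 2)) (ww T k i)
        (fun y => ww_succ_of_le T h y)]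
      have := H.resA (k + 2) (by omega) b hb
      rw [show (fam.W (k + 3) b).comap ((T.al (k + 2) : T.F (k + 2) →+* T.F (k + 3))) =
        fam.W (k + 2) (b - 1) from this, comap_ww H k _ _ (by omega) h]
      congr 1
      unfold wty
      simp only [show (i + 1 + (b - 1) < k + 2) ↔ (i + 1 + b < k + 1 + 2) from by omega,
        show (i + (b - 1) < k + 2) ↔ (i + b < k + 1 + 2) from by omega]

end Fermat.Agent.S45.Ind

end
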