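/-
S45, project CARAYOL-K, block IND (helper41).  THE FIELDS `tie_resα`, `tie_resβ` OF `ModelK`:
on `F^(k+2)` (resp. `V^(k+2)`) the norm `N₀` to the common subfield is `y ↦ y^(q²)` modulo the maximal ideal, for `y ∈ Eα` (resp. `Eβ`),
because `F^(k+1)` is radicial for `β` (resp. `V^(k+1)` for `α`).
-/
import Fermat.Agent.S45.Ind.Defs
import Fermat.Agent.S45.Mod.Norms
import Fermat.Agent.S45.Tab.Co
import Fermat.Agent.S36.BP.Cong

set_option autoImplicit false

noncomputable section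

namespace Fermat.Agent.S45.Ind

open Fermat.Agent.S36 Fermat.Agent.S36.BP Fermat.Agent.S36.Norm Fermat.Agent.S45.K
  Fermat.Agent.S45.Mod Fermat.Agent.S45.Tab

theorem tie_res_abs {F₂ F₁ F : Type*} [Field F₂] [Field F₁] [Field F] {q : ℕ} (f : F₁ →+* F)
    (g : F₂ →+* F₁) (hf : dg f = q) {W : ValuationSubring F} {U : ValuationSubring F₁}
    (hWU : W.comap f = U) (hR : Rad q (embNorm g) U) :
    ∀ y ∈ f.fieldRange, W.valuation y = 1 →
      W.valuation (embNorm (f.comp g) y - y ^ (q * q)) < 1 := by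
  rintro _ ⟨y, rfl⟩ hy
  have hy1 : U.valuation y = 1 := (co_eq_one_iff hWU y).1 hy
  have h1 : Cong U (embNorm g y) (y ^ q) := hR.res y hy1
  have h2 : Cong U (embNorm g y ^ q) ((y ^ q) ^ q) :=
    h1.pow (by rw [map_pow, hy1, one_pow]) q
  have e : embNorm (f.comp g) (f y) - f y ^ (q * q) = f (embNorm g y ^ q - (y ^ q) ^ q) := by
    rw [embNorm_comp, nm_map, hf, map_pow, map_sub, map_pow, map_pow, map_pow, ← pow_mul]
  rw [e]
  exact (co_lt_one_iff hWU _).2 h2

variable {K : Type} [Field K] {T : Tower K} {q : ℕ}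
  {V0 : ValuationSubring (T.F 0)} {V1 : Fin 2 → ValuationSubring (T.F 1)}
  {V2 : Fin 3 → ValuationSubring (T.F 2)} {fam : Fam T}

theorem tie_resα (G : T.Gen q) (H : TabOut T q V0 V1 V2 fam) {k : ℕ} (hk : 1 ≤ k) :
    ∀ y ∈ T.Ea (k + 1), (fam.W (k + 2) 0).valuation y = 1 →
      (fam.W (k + 2) 0).valuation (T.N0 k y - y ^ (q * q)) < 1 :=
  tie_res_abs (T.al (k + 1)).toRingHom (T.be k).toRingHom (G.dg_al (k + 1) (by omega))
    (H.resA (k + 1) (by omega) 0 (by omega)) (H.radB k hk)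

theorem tie_resβ (G : T.Gen q) (H : TabOut T q V0 V1 V2 fam) {k : ℕ} (hk : 1 ≤ k) :
    ∀ y ∈ T.Eb (k + 1), (fam.W (k + 2) (k + 2)).valuation y = 1 →
      (fam.W (k + 2) (k + 2)).valuation (T.N0 k y - y ^ (q * q)) < 1 := by
  have e : (T.al (k + 1)).toRingHom.comp (T.be k).toRingHom =
      (T.be (k + 1)).toRingHom.comp (T.al k).toRingHom := RingHom.ext fun y => G.comm k y
  have hres : (fam.W (k + 2) (k + 2)).comap (T.be (k + 1)).toRingHom = fam.W (k + 1) (k + 1) := by
    have := H.resB (k + 1) (by omega) (k + 2) le_rfl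
    rwa [show min (k + 2) (k + 1) = k + 1 from by omega] at this
  have key := tie_res_abs (T.be (k + 1)).toRingHom (T.al k).toRingHom (G.dg_be (k + 1) (by omega))
    hres (H.radA k hk)
  rw [← e] at key
  exact key

end Fermat.Agent.S45.Ind

end
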