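/-
S45, project CARAYOL-K, block IND (owner helper41).  THE ASSEMBLY.

`modelK_of_nodes : NodeTab → NodePre → NodePts → NodeNormChart → NodeJInt →`
`  [T.Gen q, T.Base A₀ q V0 V1 V2, PtsBase, Lvl0J, JInt] → ∀ k ≥ 1, ∃ E, ModelK A₀ q (j(z)) V ϖ E (T.Ea (k+1)) (T.Eb (k+1)) (T.Na (k+1)) (T.Nb (k+1)) (T.N0 k)`
at level `k + 2 ≥ 3`, index type `Fin (k + 3)`.
-/
import Fermat.Agent.S45.Ind.Comap
import Fermat.Agent.S45.Ind.TieRes
import Fermat.Agent.S36.BP.Build.ChartMap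

set_option autoImplicit false

noncomputable section

namespace Fermat.Agent.S45.Ind

open Fermat.Agent.S18 Fermat.Agent.S36 Fermat.Agent.S36.BP Fermat.Agent.S36.BP.Build
  Fermat.Agent.S36.Norm Fermat.Agent.S45.K Fermat.Agent.S45.Mod

/-- **Leaf NORMCHART**: (embedding) ∘ (norm) preserves the chart of a coordinate coming from below. -/
def NodeNormChart : Prop :=
  ∀ (K₀ F₁ F : Type) [Field K₀] [Field F₁] [Field F] [Algebra K₀ F₁] [Algebra K₀ F]
    (f : F₁ →ₐ[K₀] F), dg f.toRingHom ≠ 0 → ∀ (A₀ : Subring K₀) (x₁ : F₁) (b : F),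
    b ∈ chart A₀ (f x₁) → embNorm f.toRingHom b ∈ chart A₀ (f x₁)

/-- **Leaf JINT**: `j(q^i z)` and `j(z)` are integral over each other at every level. -/
def NodeJInt : Prop :=
  ∀ (K : Type) [Field K] (T : Tower K) (A₀ : ValuationSubring K) (q : ℕ), T.Gen q → JInt T A₀ →
    ∀ k i, i ≤ k → T.dd k i T.j ∈ chart A₀.toSubring (T.dd k 0 T.j) ∧
      T.dd k 0 T.j ∈ chart A₀.toSubring (T.dd k i T.j)

variable {K : Type} [Field K] {T : Tower K} {q : ℕ} {A₀ : ValuationSubring K}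
  {V0 : ValuationSubring (T.F 0)} {V1 : Fin 2 → ValuationSubring (T.F 1)}
  {V2 : Fin 3 → ValuationSubring (T.F 2)} {fam : Fam T}

theorem be_dd (G : T.Gen q) {k i : ℕ} (h : i ≤ k) (y : T.F 0) :
    T.be k (T.dd k i y) = T.dd (k + 1) (i + 1) y := by
  induction k generalizing i with
  | zero =>
    obtain rfl : i = 0 := by omega
    rw [T.dd_succ_self]
  | succ k ih =>
    rcases Nat.lt_or_ge k i with h1 | h1
    · obtain rfl : i = k + 1 := by omega
      rw [T.dd_succ_self (k + 1)]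
    · rw [T.dd_succ_of_le h1, ← G.comm, ih h1, T.dd_succ_of_le (k := k + 1) (by omega)]

/-- **`Pts.Geo` at level `k + 2`.** -/
theorem geo (G : T.Gen q) (B : T.Base A₀ q V0 V1 V2) (H : TabOut T q V0 V1 V2 fam) (k : ℕ)
    (hJ : ∀ i ≤ k + 2, T.dd (k + 2) i T.j ∈ chart A₀.toSubring (T.dd (k + 2) 0 T.j) ∧
      T.dd (k + 2) 0 T.j ∈ chart A₀.toSubring (T.dd (k + 2) i T.j)) :
    Pts.Geo A₀ (k + 2) (T.al 0) (T.be 0) (T.al 1) (T.be 1) V0 V1 V2 (fam.V (k + 2)) T.j
      (fun i => T.dd (k + 2) i) (fun i => st T (k + 1) i) (fun i => ww T k i) where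
  st_al i hi y := st_al G (by omega) y
  st_be i hi y := st_be G (by omega) y
  w_al i hi y := ww_al G (by omega) y
  w_be i hi y := ww_be G (by omega) y
  comap_d c i hi := comap_dd B H (k + 1) c i (by have := c.2; omega) hi
  comap_st c i hi := comap_st H (k + 1) c i (by have := c.2; omega) (by omega)
  comap_w c i hi := comap_ww H k c i (by have := c.2; omega) (by omega)
  jint := hJ

theorem dg_al_ne (G : T.Gen q) (hq : q ≠ 0) (k : ℕ) : dg (T.al k).toRingHom ≠ 0 := by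
  rcases Nat.eq_zero_or_pos k with rfl | hk
  · rw [G.dg_al0]; omega
  · rw [G.dg_al k hk]; exact hq

theorem dg_be_ne (G : T.Gen q) (hq : q ≠ 0) (k : ℕ) : dg (T.be k).toRingHom ≠ 0 := by
  rcases Nat.eq_zero_or_pos k with rfl | hk
  · rw [G.dg_be0]; omega
  · rw [G.dg_be k hk]; exact hq

/-- **`Pts.Top` at level `k + 2`, `k ≥ 1`.** -/
theorem top (hNC : NodeNormChart) (G : T.Gen q) (hq : q ≠ 0) (H : TabOut T q V0 V1 V2 fam) {k : ℕ}
    (hk : 1 ≤ k)
    (hJ : ∀ i ≤ k + 2, T.dd (k + 2) i T.j ∈ chart A₀.toSubring (T.dd (k + 2) 0 T.j) ∧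
      T.dd (k + 2) 0 T.j ∈ chart A₀.toSubring (T.dd (k + 2) i T.j)) :
    Pts.Top A₀ q (k + 2) (fam.V (k + 2)) T.j (fun i => T.dd (k + 2) i) (T.Ea (k + 1))
      (T.Na (k + 1)) (T.Nb (k + 1)) (T.N0 k) := by
  have hN := G.normHyp hk
  have e01 : chart A₀.toSubring (T.dd (k + 2) 0 T.j) = chart A₀.toSubring (T.dd (k + 2) 1 T.j) :=
    chart_eq_of_mem _ (hJ 1 (by omega)).1 (hJ 1 (by omega)).2
  refine
    { unif_zero := ?_, unif_last := ?_, unif_mid := fun c h0 h1 => H.unif_mid (k + 2) c h0 h1,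
      dense_lo := ?_, dense_hi := ?_, radα := ⟨Fin.last _, ?_⟩, radβ := ⟨0, ?_⟩,
      normα_chart := ?_, normβ_chart := ?_, norm₀_chart := ?_, normα_mem := hN.normα_mem,
      tieα := hN.tieα, tie_resα := ⟨0, ?_⟩ }
  · have := H.unif (k + 2) (by omega) 0 (by omega)
    rw [H.unif_zero (k + 2) (by omega)] at this
    exact this
  · have := H.unif (k + 2) (by omega) (k + 2) le_rfl
    rw [H.unif_top (k + 2) (by omega)] at this
    exact this
  · intro c hc y hy
    obtain ⟨y₀, h⟩ := H.dense_lo (k + 2) (by omega) c (by have := c.2; omega) hc y hy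
    exact ⟨y₀, by rw [dd_zero_right]; exact h⟩
  · intro c hc y hy
    obtain ⟨y₀, h⟩ := H.dense_hi (k + 2) (by omega) c (by have := c.2; omega) hc y hy
    exact ⟨y₀, by rw [dd_self]; exact h⟩
  · exact H.radA (k + 1) (by omega)
  · exact H.radB (k + 1) (by omega)
  · intro b hb
    show T.Na (k + 1) b ∈ chart A₀.toSubring (T.dd (k + 2) 0 T.j)
    have hb' : b ∈ chart A₀.toSubring (T.dd (k + 2) 0 T.j) := hb
    rw [T.dd_succ_of_le (k := k + 1) (Nat.zero_le _)] at hb' ⊢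
    exact hNC K (T.F (k + 1)) (T.F (k + 2)) (T.al (k + 1)) (dg_al_ne G hq _) _ _ b hb'
  · intro b hb
    show T.Nb (k + 1) b ∈ chart A₀.toSubring (T.dd (k + 2) 0 T.j)
    have hb' : b ∈ chart A₀.toSubring (T.dd (k + 2) 0 T.j) := hb
    rw [e01, ← be_dd G (Nat.zero_le (k + 1))] at hb' ⊢
    exact hNC K (T.F (k + 1)) (T.F (k + 2)) (T.be (k + 1)) (dg_be_ne G hq _) _ _ b hb'
  · intro b hb
    show T.N0 k b ∈ chart A₀.toSubring (T.dd (k + 2) 0 T.j)
    have hb' : b ∈ chart A₀.toSubring (T.dd (k + 2) 0 T.j) := hb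
    rw [e01, T.dd_succ_of_le (k := k + 1) (by omega), ← be_dd G (Nat.zero_le k)] at hb' ⊢
    refine hNC K (T.F k) (T.F (k + 2)) ((T.al (k + 1)).comp (T.be k)) ?_ _ _ b hb'
    have e : ((T.al (k + 1)).comp (T.be k)).toRingHom =
        (T.al (k + 1)).toRingHom.comp (T.be k).toRingHom := rfl
    rw [e, dg_comp]
    exact Nat.mul_ne_zero (dg_be_ne G hq _) (dg_al_ne G hq _)
  · exact tie_resα G H hk

/-- **`ModelK` from its parts.** -/
theorem modelK_of_parts (G : T.Gen q) (H : TabOut T q V0 V1 V2 fam) {k : ℕ} (hk : 1 ≤ k)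
    (P : Pts.PreModelK A₀ q (T.da (k + 2) T.j) (fam.V (k + 2)))
    (hP : PtsOut A₀ q (T.da (k + 2) T.j) (fam.V (k + 2)) (T.Na (k + 1)) (T.Nb (k + 1)) (T.N0 k)) :
    ModelK A₀ q (T.da (k + 2) T.j) (fam.V (k + 2)) (fam.pi (k + 2)) (q ^ (k + 2)) (T.Ea (k + 1))
      (T.Eb (k + 1)) (T.Na (k + 1)) (T.Nb (k + 1)) (T.N0 k) := by
  have hN := G.normHyp hk
  exact
    { base := P.base
      transc := P.transc
      finite := P.finite
      const_mem := P.const_mem
      x_unit := P.x_unit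
      inj := P.inj
      unif := fun c => H.unif (k + 2) (by omega) c (by have := c.2; omega)
      ram := fun c => H.ram (k + 2) (by omega) c (by have := c.2; omega)
      unram := ⟨0, by
        have := H.unif (k + 2) (by omega) 0 (by omega)
        rw [H.unif_zero (k + 2) (by omega)] at this
        exact this⟩
      qep₁ := P.qep₁
      qep₂ := P.qep₂
      constα := hN.constα
      constβ := hN.constβ
      normα_mem := hN.normα_mem
      normβ_mem := hN.normβ_mem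
      normα_self := hN.normα_self
      normβ_self := hN.normβ_self
      norm₀_const := hN.norm₀_const
      rad := fun c => H.rad (k + 1) (by omega) c (by have := c.2; omega)
      tieα := hN.tieα
      tieβ := hN.tieβ
      tieα_one := hN.tieα_one
      tieβ_one := hN.tieβ_one
      tie_resα := ⟨0, tie_resα G H hk⟩
      tie_resβ := ⟨Fin.last _, tie_resβ G H hk⟩
      pts₁ := hP.1
      pts₂ := hP.2 }

/-- the family `fam.V k` is injective -/
theorem fam_injective (H : TabOut T q V0 V1 V2 fam) {k : ℕ} (hk : 1 ≤ k) :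
    Function.Injective (fam.V k) := fun c c' h =>
  Fin.ext (H.inj k hk c (by have := c.2; omega) c' (by have := c'.2; omega) h)

/-- **THE ASSEMBLY.** -/
theorem modelK_of_nodes (hTab : NodeTab) (hPre : NodePre) (hPts : NodePts) (hNC : NodeNormChart)
    (hJI : NodeJInt) (G : T.Gen q) (B : T.Base A₀ q V0 V1 V2) (hPB : PtsBase T A₀ q V0 V1 V2)
    (hL : Lvl0J T A₀ q V0) (hJ : JInt T A₀) {k : ℕ} (hk : 1 ≤ k) :
    ∃ (V : Fin (k + 3) → ValuationSubring (T.F (k + 2))) (ϖ : Fin (k + 3) → T.F (k + 2)) (E : ℕ),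
      ModelK A₀ q (T.da (k + 2) T.j) V ϖ E (T.Ea (k + 1)) (T.Eb (k + 1)) (T.Na (k + 1))
        (T.Nb (k + 1)) (T.N0 k) := by
  obtain ⟨fam, H⟩ := hTab K T A₀ q V0 V1 V2 G B hPB
  obtain ⟨t, x₁, w1, cf, κ, e, b0, b1, b2⟩ := hPB
  have hq : q ≠ 0 := B.base.prime.ne_zero
  have hJk := hJI K T A₀ q G hJ (k + 2)
  have hcomap : ∀ c, (fam.V (k + 2) c).comap (T.da (k + 2) : T.F 0 →+* T.F (k + 2)) = V0 := by
    intro c
    have := comap_dd B H (k + 1) c 0 (by have := c.2; omega) (by omega)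
    rw [← this]
    ext y
    show T.da (k + 2) y ∈ fam.V (k + 2) c ↔ T.dd (k + 2) 0 y ∈ fam.V (k + 2) c
    rw [dd_zero_right]
  have P : Pts.PreModelK A₀ q (T.da (k + 2) T.j) (fam.V (k + 2)) :=
    hPre K T A₀ q V0 B.base G hL (k + 2) (Fin (k + 3)) (fam.V (k + 2))
      (fam_injective H (by omega))
      (fun c => ⟨_, H.unif (k + 2) (by omega) c (by have := c.2; omega)⟩) hcomap
      (fun W hW => by
        obtain ⟨b, hb, rfl⟩ := H.complete (k + 2) (by omega) W hW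
        exact ⟨⟨b, by omega⟩, rfl⟩)
  have hx : T.dd (k + 2) 0 T.j = T.da (k + 2) T.j := dd_zero_right T _ _
  have hout := hPts K (T.F 0) (T.F 1) (T.F 2) (T.F (k + 2)) A₀ q (k + 2) (T.al 0) (T.be 0) (T.al 1)
    (T.be 1) V0 V1 V2 (fam.V (k + 2)) T.j T.x₀ t x₁ w1 cf κ e (fun i => T.dd (k + 2) i)
    (fun i => st T (k + 1) i) (fun i => ww T k i) (T.Ea (k + 1)) (T.Na (k + 1)) (T.Nb (k + 1))
    (T.N0 k) (by omega) (by show Pts.PreModelK A₀ q (T.dd (k + 2) 0 T.j) _; rw [hx]; exact P)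
    (geo G B H k hJk) (b0 (k + 2)) b1 b2 (top hNC G hq H hk hJk)
  have hout' : PtsOut A₀ q (T.da (k + 2) T.j) (fam.V (k + 2)) (T.Na (k + 1)) (T.Nb (k + 1))
      (T.N0 k) := by
    have h : PtsOut A₀ q (T.dd (k + 2) 0 T.j) (fam.V (k + 2)) (T.Na (k + 1)) (T.Nb (k + 1))
      (T.N0 k) := hout
    rwa [hx] at h
  exact ⟨fam.V (k + 2), fam.pi (k + 2), q ^ (k + 2), modelK_of_parts G H hk P hout'⟩

end Fermat.Agent.S45.Ind

end
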