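/-
S45, project CARAYOL-K, block IND (helper161).  THE LEAF `NodeJInt` OF `Ind/Main.lean`: the relation of level `1`
transported by the steps `Ind.st`, then a chain.
-/
import Fermat.Agent.S45.Ind.Main
import Fermat.Agent.S18.Chart.Overlap

set_option autoImplicit false

noncomputable section

namespace Fermat.Agent.S45.Ind

open Fermat.Agent.S18 Fermat.Agent.S36 Fermat.Agent.S36.BP Fermat.Agent.S36.BP.Build
  Fermat.Agent.S45.K Fermat.Agent.S45.Mod

/-- **Leaf JINT.** -/
theorem nodeJInt : NodeJInt := by
  intro K _ T A₀ q G hJ k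
  cases k with
  | zero =>
    intro i hi
    obtain rfl : i = 0 := by omega
    exact ⟨self_mem_chart _, self_mem_chart _⟩
  | succ k =>
    intro i
    induction i with
    | zero => exact fun _ => ⟨self_mem_chart _, self_mem_chart _⟩
    | succ i ih =>
      intro hi
      obtain ⟨h1, h2⟩ := ih (by omega)
      have h3 := map_mem_chart (st T k i) A₀.toSubring _ _ hJ.1
      have h4 := map_mem_chart (st T k i) A₀.toSubring _ _ hJ.2
      rw [st_al G (by omega), st_be G (by omega)] at h3 h4
      exact ⟨chart_le_of_mem _ h1 h3, chart_le_of_mem _ h4 h2⟩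

end Fermat.Agent.S45.Ind

end
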