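/-
S45, project CARAYOL-K, block QEP (helper113; ruling D1 = report #1706).

The fields `transc`, `finite`, `const_mem`, `x_unit`, `qep₁`, `qep₂` of `S45.K.ModelK` at EVERY level of the tower, from
* the good level `0` (`Lvl0`: the same hypotheses as the block (L0) of `BAD.Model.InstBase`), and
* the completeness of the list `V : κ → ValuationSubring F` of the valuation rings above the vertical valuation ring of level `0`.

Part A is generic: one embedding `ι : F₀ →ₐ[K₀] F` of finite degree, an arbitrary index type `κ`.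
Part B is the instance for the abstract tower `S45.Mod.Tower` (`ι = T.da k`, `T.db k`, or any `T.dd k i`).
-/
import Fermat.Agent.S36.BP.Build.UpQep
import Fermat.Agent.S36.BP.Build.ChartMap
import Fermat.Agent.S45.K.Defs
import Fermat.Agent.S45.Mod.Tower

set_option autoImplicit false
set_option linter.style.haveILetI false

noncomputable section

namespace Fermat.Agent.S45.Ind

open Fermat.Agent.S18 Fermat.Agent.S36.BP Fermat.Agent.S36.BP.Build Fermat.Agent.S36.Norm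
  Fermat.Agent.S45.Mod IntermediateField

/-! ### Part A: one embedding -/

section One

variable {K₀ F₀ F : Type*} [Field K₀] [Field F₀] [Field F] [Algebra K₀ F₀] [Algebra K₀ F]

/-- **The good level.**  `x₀` = the base coordinate, `Ow` = the vertical valuation ring. -/
structure Lvl0 (A₀ : ValuationSubring K₀) (q : ℕ) (x₀ : F₀) (Ow : ValuationSubring F₀) : Prop where
  transc : Transcendental K₀ x₀
  finite : FiniteDimensional K₀⟮x₀⟯ F₀
  unif : IsUnif Ow (q : F₀)
  const : ∀ a ∈ A₀, algebraMap K₀ F₀ a ∈ Ow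
  x_unit : Ow.valuation x₀ = 1
  chart₁ : IsChart Ow (q : F₀) (chart A₀.toSubring x₀)
  chart₂ : IsChart Ow (q : F₀) (chart A₀.toSubring x₀⁻¹)

/-- **The six fields of `ModelK` delivered by this block.** -/
structure QepFields {κ : Type*} (A₀ : ValuationSubring K₀) (q : ℕ) (x : F)
    (V : κ → ValuationSubring F) : Prop where
  transc : Transcendental K₀ x
  finite : FiniteDimensional K₀⟮x⟯ F
  const_mem : ∀ c, ∀ a ∈ A₀, algebraMap K₀ F a ∈ V c
  x_unit : ∀ c, (V c).valuation x = 1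
  qep₁ : ∀ y : F, (q : F) * y ∈ chart A₀.toSubring x → (∀ c, y ∈ V c) → y ∈ chart A₀.toSubring x
  qep₂ : ∀ y : F, (q : F) * y ∈ chart A₀.toSubring x⁻¹ → (∀ c, y ∈ V c) →
    y ∈ chart A₀.toSubring x⁻¹
  /-- bonus: the two charts are contained in every `V c` -/
  chart_le₁ : ∀ c, ∀ b ∈ chart A₀.toSubring x, b ∈ V c
  chart_le₂ : ∀ c, ∀ b ∈ chart A₀.toSubring x⁻¹, b ∈ V c

/-- the image of a transcendental element is transcendental -/
theorem transcendental_map (ι : F₀ →ₐ[K₀] F) {x₀ : F₀} (h : Transcendental K₀ x₀) :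
    Transcendental K₀ (ι x₀) := fun halg =>
  h ((isAlgebraic_algHom_iff ι ι.toRingHom.injective).mp halg)

/-- `F` is finite over `K₀(ι x₀)` if `F₀` is finite over `K₀(x₀)` and `ι` has finite degree. -/
theorem finite_map (ι : F₀ →ₐ[K₀] F) {x₀ : F₀} (h₀ : FiniteDimensional K₀⟮x₀⟯ F₀)
    (hdg : dg (ι : F₀ →+* F) ≠ 0) : FiniteDimensional K₀⟮ι x₀⟯ F := by
  letI : Algebra F₀ F := (ι : F₀ →+* F).toAlgebra
  haveI hfin : FiniteDimensional F₀ F := Module.finite_of_finrank_pos (Nat.pos_of_ne_zero hdg)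
  have hmem : ∀ y : K₀⟮x₀⟯, (ι : F₀ →+* F) (algebraMap K₀⟮x₀⟯ F₀ y) ∈ (K₀⟮ι x₀⟯).toSubfield := by
    intro y
    have h1 : (K₀⟮x₀⟯).map ι = K₀⟮ι x₀⟯ := by
      rw [IntermediateField.adjoin_map, Set.image_singleton]
    show ι (y : F₀) ∈ K₀⟮ι x₀⟯
    rw [← h1]
    exact ⟨y, y.2, rfl⟩
  let φ : K₀⟮x₀⟯ →+* K₀⟮ι x₀⟯ :=
    ((ι : F₀ →+* F).comp (algebraMap K₀⟮x₀⟯ F₀)).codRestrict (K₀⟮ι x₀⟯).toSubfield hmem
  letI : Algebra K₀⟮x₀⟯ K₀⟮ι x₀⟯ := φ.toAlgebra
  letI : Algebra K₀⟮x₀⟯ F := ((ι : F₀ →+* F).comp (algebraMap K₀⟮x₀⟯ F₀)).toAlgebra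
  haveI : IsScalarTower K₀⟮x₀⟯ F₀ F := IsScalarTower.of_algebraMap_eq (fun _ => rfl)
  haveI : IsScalarTower K₀⟮x₀⟯ K₀⟮ι x₀⟯ F := IsScalarTower.of_algebraMap_eq (fun _ => rfl)
  haveI : Module.Finite K₀⟮x₀⟯ F := Module.Finite.trans F₀ F
  exact Module.Finite.of_restrictScalars_finite K₀⟮x₀⟯ K₀⟮ι x₀⟯ F

/-- `F` is integral over the image of an embedding of finite degree. -/
theorem isIntegralElem_of_dg (ι : F₀ →+* F) (hdg : dg ι ≠ 0) (z : F) : ι.IsIntegralElem z := by
  letI : Algebra F₀ F := ι.toAlgebra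
  haveI hfin : FiniteDimensional F₀ F := Module.finite_of_finrank_pos (Nat.pos_of_ne_zero hdg)
  exact Algebra.IsIntegral.isIntegral (R := F₀) z

theorem mem_iff_of_comap {ι : F₀ →+* F} {W : ValuationSubring F} {Ow : ValuationSubring F₀}
    (h : W.comap ι = Ow) (y : F₀) : ι y ∈ W ↔ y ∈ Ow := by
  rw [← h, ValuationSubring.mem_comap]

theorem val_eq_one_of_comap {ι : F₀ →+* F} {W : ValuationSubring F} {Ow : ValuationSubring F₀}
    (h : W.comap ι = Ow) {y : F₀} (hy : Ow.valuation y = 1) : W.valuation (ι y) = 1 := by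
  have hy0 : y ≠ 0 := by
    rintro rfl
    rw [map_zero] at hy
    exact zero_ne_one hy
  have h1 : y ∈ Ow := (Ow.valuation_le_one_iff _).1 hy.le
  have h2 : y⁻¹ ∈ Ow := (Ow.valuation_le_one_iff _).1 (by rw [map_inv₀, hy, inv_one])
  have h3 : W.valuation (ι y) ≤ 1 := (W.valuation_le_one_iff _).2 ((mem_iff_of_comap h y).2 h1)
  have h4 : W.valuation (ι y)⁻¹ ≤ 1 := by
    rw [← map_inv₀]
    exact (W.valuation_le_one_iff _).2 ((mem_iff_of_comap h _).2 h2)
  rw [map_inv₀] at h4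
  have h5 : W.valuation (ι y) ≠ 0 := (Valuation.ne_zero_iff _).2 ((map_ne_zero ι).2 hy0)
  exact le_antisymm h3 ((inv_le_one₀ (zero_lt_iff.2 h5)).1 h4)

/-- an element integral over a subring of a valuation ring lies in the valuation ring -/
theorem mem_of_isIntegral_le {S : Subring F} {W : ValuationSubring F} (hS : ∀ r ∈ S, r ∈ W)
    {z : F} (hz : IsIntegral S z) : z ∈ W := by
  obtain ⟨p, hp, hp0⟩ := hz
  let f : S →+* W := Subring.inclusion (show S ≤ W.toSubring from hS)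
  have hz' : IsIntegral W z := by
    refine ⟨p.map f, hp.map f, ?_⟩
    rw [Polynomial.eval₂_map]
    exact hp0
  obtain ⟨w, rfl⟩ := (IsIntegrallyClosed.isIntegral_iff (R := W) (K := F)).mp hz'
  exact w.2

/-- the chart upstairs is contained in every extension of `Ow`. -/
theorem chart_le_of_comap {A₀ : ValuationSubring K₀} (ι : F₀ →ₐ[K₀] F) {z₀ : F₀}
    {Ow : ValuationSubring F₀} (h₀ : ∀ b ∈ chart A₀.toSubring z₀, b ∈ Ow)
    {W : ValuationSubring F} (hW : W.comap (ι : F₀ →+* F) = Ow) :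
    ∀ b ∈ chart A₀.toSubring (ι z₀), b ∈ W := by
  intro b hb
  rw [mem_chart_map_iff] at hb
  refine mem_of_isIntegral_le (fun r hr => ?_) hb
  obtain ⟨r₀, hr₀, rfl⟩ := hr
  exact (mem_iff_of_comap hW r₀).2 (h₀ _ hr₀)

/-- the `q`-expansion principle for the chart of `ι z₀`, arbitrary index type. -/
theorem qep_of_complete {κ : Type*} {V : κ → ValuationSubring F} {A₀ : ValuationSubring K₀}
    {q : ℕ} {Ow : ValuationSubring F₀} (ι : F₀ →ₐ[K₀] F) (hdg : dg (ι : F₀ →+* F) ≠ 0)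
    (hU : IsUnif Ow (q : F₀)) {z₀ : F₀} (h₀ : IsChart Ow (q : F₀) (chart A₀.toSubring z₀))
    (hcomp : ∀ W : ValuationSubring F, W.comap (ι : F₀ →+* F) = Ow → ∃ c, W = V c) :
    ∀ y : F, (q : F) * y ∈ chart A₀.toSubring (ι z₀) → (∀ c, y ∈ V c) →
      y ∈ chart A₀.toSubring (ι z₀) := by
  intro y hy hV
  refine qep_of_level0 (ι : F₀ →+* F) V (isIntegralElem_of_dg _ hdg) hU h₀ hcomp
    (mem_chart_map_iff ι A₀.toSubring z₀) y ?_ hV
  rwa [map_natCast]

/-- **Block QEP, generic form.** -/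
theorem qepFields_of {κ : Type*} {V : κ → ValuationSubring F} {A₀ : ValuationSubring K₀} {q : ℕ}
    {x₀ : F₀} {Ow : ValuationSubring F₀} (L : Lvl0 A₀ q x₀ Ow) (ι : F₀ →ₐ[K₀] F)
    (hdg : dg (ι : F₀ →+* F) ≠ 0) (hcomap : ∀ c, (V c).comap (ι : F₀ →+* F) = Ow)
    (hcomp : ∀ W : ValuationSubring F, W.comap (ι : F₀ →+* F) = Ow → ∃ c, W = V c) :
    QepFields A₀ q (ι x₀) V where
  transc := transcendental_map ι L.transc
  finite := finite_map ι L.finite hdg
  const_mem c a ha := by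
    have h := (mem_iff_of_comap (hcomap c) (algebraMap K₀ F₀ a)).2 (L.const a ha)
    have e : (ι : F₀ →+* F) (algebraMap K₀ F₀ a) = algebraMap K₀ F a := ι.commutes a
    rwa [e] at h
  x_unit c := val_eq_one_of_comap (hcomap c) L.x_unit
  qep₁ := qep_of_complete ι hdg L.unif L.chart₁ hcomp
  qep₂ := by
    rw [← map_inv₀]
    exact qep_of_complete ι hdg L.unif L.chart₂ hcomp
  chart_le₁ c := chart_le_of_comap ι L.chart₁.le (hcomap c)
  chart_le₂ c := by
    rw [← map_inv₀]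
    exact chart_le_of_comap ι L.chart₂.le (hcomap c)

end One

/-! ### Part B: the abstract tower -/

section Tow

variable {K : Type} [Field K] (T : Tower K) {q : ℕ}

theorem dg_id_ne_zero {L : Type*} [Field L] : dg (RingHom.id L) ≠ 0 := by
  rw [dg_of_surjective _ Function.surjective_id]
  exact one_ne_zero

theorem dg_al_ne_zero (G : T.Gen q) (hq : q ≠ 0) (k : ℕ) : dg (T.al k).toRingHom ≠ 0 := by
  rcases Nat.eq_zero_or_pos k with rfl | hk
  · rw [G.dg_al0]; omega
  · rw [G.dg_al k hk]; exact hq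

theorem dg_be_ne_zero (G : T.Gen q) (hq : q ≠ 0) (k : ℕ) : dg (T.be k).toRingHom ≠ 0 := by
  rcases Nat.eq_zero_or_pos k with rfl | hk
  · rw [G.dg_be0]; omega
  · rw [G.dg_be k hk]; exact hq

theorem dg_da_ne_zero (G : T.Gen q) (hq : q ≠ 0) (k : ℕ) : dg (T.da k : T.F 0 →+* T.F k) ≠ 0 := by
  induction k with
  | zero => exact dg_id_ne_zero
  | succ k ih =>
    have e : (T.da (k + 1) : T.F 0 →+* T.F (k + 1)) =
        (T.al k).toRingHom.comp (T.da k : T.F 0 →+* T.F k) := rfl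
    rw [e, dg_comp]
    exact Nat.mul_ne_zero ih (dg_al_ne_zero T G hq k)

theorem dg_db_ne_zero (G : T.Gen q) (hq : q ≠ 0) (k : ℕ) : dg (T.db k : T.F 0 →+* T.F k) ≠ 0 := by
  induction k with
  | zero => exact dg_id_ne_zero
  | succ k ih =>
    have e : (T.db (k + 1) : T.F 0 →+* T.F (k + 1)) =
        (T.be k).toRingHom.comp (T.db k : T.F 0 →+* T.F k) := rfl
    rw [e, dg_comp]
    exact Nat.mul_ne_zero ih (dg_be_ne_zero T G hq k)

theorem dg_dd_ne_zero (G : T.Gen q) (hq : q ≠ 0) (k i : ℕ) :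
    dg (T.dd k i : T.F 0 →+* T.F k) ≠ 0 := by
  induction k generalizing i with
  | zero => exact dg_id_ne_zero
  | succ k ih =>
    by_cases h : i ≤ k
    · have e : (T.dd (k + 1) i : T.F 0 →+* T.F (k + 1)) =
          (T.al k).toRingHom.comp (T.dd k i : T.F 0 →+* T.F k) := by
        ext y
        exact T.dd_succ_of_le h y
      rw [e, dg_comp]
      exact Nat.mul_ne_zero (ih i) (dg_al_ne_zero T G hq k)
    · have e : (T.dd (k + 1) i : T.F 0 →+* T.F (k + 1)) =
          (T.be k).toRingHom.comp (T.dd k k : T.F 0 →+* T.F k) := by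
        ext y
        show T.dd (k + 1) i y = T.be k (T.dd k k y)
        rw [Tower.dd, if_neg h]
        rfl
      rw [e, dg_comp]
      exact Nat.mul_ne_zero (ih k) (dg_be_ne_zero T G hq k)

variable {A₀ : ValuationSubring K} {V0 : ValuationSubring (T.F 0)}

/-- **Block QEP at level `k`**, coordinate `x = x₀(z)`. -/
theorem qepFields_da (G : T.Gen q) (hq : q ≠ 0) (L : Lvl0 A₀ q T.x₀ V0) (k : ℕ) {κ : Type*}
    {V : κ → ValuationSubring (T.F k)}
    (hcomap : ∀ c, (V c).comap (T.da k : T.F 0 →+* T.F k) = V0)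
    (hcomp : ∀ W : ValuationSubring (T.F k), W.comap (T.da k : T.F 0 →+* T.F k) = V0 →
      ∃ c, W = V c) : QepFields A₀ q (T.da k T.x₀) V :=
  qepFields_of L (T.da k) (dg_da_ne_zero T G hq k) hcomap hcomp

/-- **Block QEP at level `k`**, coordinate `x = x₀(q^k z)`. -/
theorem qepFields_db (G : T.Gen q) (hq : q ≠ 0) (L : Lvl0 A₀ q T.x₀ V0) (k : ℕ) {κ : Type*}
    {V : κ → ValuationSubring (T.F k)}
    (hcomap : ∀ c, (V c).comap (T.db k : T.F 0 →+* T.F k) = V0)
    (hcomp : ∀ W : ValuationSubring (T.F k), W.comap (T.db k : T.F 0 →+* T.F k) = V0 →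
      ∃ c, W = V c) : QepFields A₀ q (T.db k T.x₀) V :=
  qepFields_of L (T.db k) (dg_db_ne_zero T G hq k) hcomap hcomp

end Tow

end Fermat.Agent.S45.Ind

end
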