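/-
S45, project CARAYOL-K, block QEP, coordinate `x = j(z)` (helper113; asked by helper41 (IND) and helper219 (PTS)).

`Pts.PreModelK A₀ q (ι j) V` (the fields of `ModelK` which do not speak of closed points or of norms, plus `gauss`) from
* the level `0` (`LvlJ`: the inputs of `S36/Inst/Pre.lean` at level `N₀`, i.e. `pre_isVert_j`, `pre_isMCoord_j0`), and
* the completeness of the list `V : κ → ValuationSubring F` of the valuation rings above the vertical valuation ring of level `0`.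
Port of `S36.Inst.preModel` (`LevelQ.isMVert_tower` along `ι`, `LevelQ.chart_qep`, `IsMCoord.inv`); arbitrary index type.

Part A: one embedding `ι : F₀ →ₐ[K₀] F` of finite degree (`preModelK_of`).
Part B: the abstract tower `S45.Mod.Tower`, `ι = T.da k` (`preModelK_da`), `ι = T.db k` (`preModelK_db`).
-/
import Fermat.Agent.BAD.LevelQ.Abs.Mem
import Fermat.Agent.BAD.LevelQ.Abs.Change
import Fermat.Agent.BAD.LevelQ.Abs.Tower
import Fermat.Agent.BAD.LevelQ.Abs.Coord
import Fermat.Agent.S36.BP.Build.UpDense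
import Fermat.Agent.S45.Pts.Defs
import Fermat.Agent.S45.Ind.Qep

set_option autoImplicit false
set_option linter.style.haveILetI false

noncomputable section

namespace Fermat.Agent.S45.Ind

open Fermat.Agent.S18 Fermat.Agent.S36.BP Fermat.Agent.S36.Norm Fermat.Agent.BAD.LevelQ
  Fermat.Agent.S45.Mod Fermat.Agent.S45.Pts IntermediateField Polynomial

/-! ### Part A: one embedding -/

section One

variable {K₀ F₀ F : Type*} [Field K₀] [Field F₀] [Field F] [Algebra K₀ F₀] [Algebra K₀ F]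

/-- **The good level, coordinate `j`.**  In the instance (`S : S36.Mod.Setup K K'`, `A₀ = S.B`, `Ow = S.V0`, `j = jK K S.N0`):
`vert = S36.Inst.pre_isVert_j S`, `coord = S36.Inst.pre_isMCoord_j0 S`. -/
structure LvlJ (A₀ : ValuationSubring K₀) (q : ℕ) (j : F₀) (Ow : ValuationSubring F₀) : Prop where
  base : BaseHyp A₀ q
  /-- `Ow` is the only vertical valuation of level `0` relative to `K₀(j)` -/
  vert : IsVert A₀ ((q : ℕ) : K₀) Ow K₀⟮j⟯
  /-- the reduction of `j` is transcendental -/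
  coord : IsMCoord A₀ Ow j
  j_unit : Ow.valuation j = 1

variable {A₀ : ValuationSubring K₀} {q : ℕ} {j : F₀} {Ow : ValuationSubring F₀} {κ : Type*}
  {V : κ → ValuationSubring F}

theorem isMCoord_map (L : IsMCoord A₀ Ow j) (ι : F₀ →ₐ[K₀] F) {W : ValuationSubring F}
    (hW : W.comap (ι : F₀ →+* F) = Ow) : IsMCoord A₀ W (ι j) := by
  refine ⟨(mem_iff_of_comap hW j).2 L.mem, fun p hp hlt => ?_⟩
  rw [Polynomial.aeval_algHom_apply] at hlt
  exact L.transc p hp ((Build.val_lt_one_iff_of_comap_eq hW _).2 hlt)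

theorem finite_of_dg (ι : F₀ →ₐ[K₀] F) (hdg : dg (ι : F₀ →+* F) ≠ 0) :
    letI := ι.toRingHom.toAlgebra; FiniteDimensional F₀ F := by
  letI := ι.toRingHom.toAlgebra
  exact Module.finite_of_finrank_pos (Nat.pos_of_ne_zero hdg)

theorem exists_monic_of_complete (ι : F₀ →ₐ[K₀] F) (hdg : dg (ι : F₀ →+* F) ≠ 0) {ϖ : F₀}
    (hU : IsUnif Ow ϖ)
    (hcomp : ∀ W : ValuationSubring F, W.comap (ι : F₀ →+* F) = Ow → ∃ c, W = V c) (y : F)
    (hy : ∀ c, y ∈ V c) :
    ∃ p : F₀[X], p.Monic ∧ (∀ i, p.coeff i ∈ Ow) ∧ (p.map ι.toRingHom).eval y = 0 := by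
  have h1 := Build.isIntegral_of_complete (ι : F₀ →+* F) V (isIntegralElem_of_dg _ hdg) hU hcomp hy
  obtain ⟨p, hp, hp0⟩ := (Build.isIntegral_map_iff _ _ _).1 h1
  refine ⟨p.map Ow.toSubring.subtype, hp.map _, fun i => ?_, ?_⟩
  · rw [coeff_map]
    exact (p.coeff i).2
  · rw [Polynomial.map_map, Polynomial.eval_map]
    exact hp0

/-- the `V c` are all the vertical valuations of `F` relative to `K₀(ι j)`. -/
theorem isMVert_of (L : LvlJ A₀ q j Ow) (ι : F₀ →ₐ[K₀] F) (hdg : dg (ι : F₀ →+* F) ≠ 0)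
    (hcomap : ∀ c, (V c).comap (ι : F₀ →+* F) = Ow)
    (hcomp : ∀ W : ValuationSubring F, W.comap (ι : F₀ →+* F) = Ow → ∃ c, W = V c) :
    IsMVert A₀ ((q : ℕ) : K₀) V K₀⟮ι j⟯ := by
  refine isMVert_tower (V := V) ι L.vert (finite_of_dg ι hdg)
    (fun c y hy => (mem_iff_of_comap (hcomap c) y).2 hy) (fun c => ?_)
    (exists_monic_of_complete ι hdg L.vert.unif hcomp)
  rw [← ι.commutes]
  exact (Build.val_lt_one_iff_of_comap_eq (hcomap c) _).1 (tow_valuation_lt_one L.vert.unif)

/-- **Block QEP, coordinate `j`, generic form.** -/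
theorem preModelK_of [Nonempty κ] (L : LvlJ A₀ q j Ow) (ι : F₀ →ₐ[K₀] F)
    (hdg : dg (ι : F₀ →+* F) ≠ 0) (hcomap : ∀ c, (V c).comap (ι : F₀ →+* F) = Ow)
    (hcomp : ∀ W : ValuationSubring F, W.comap (ι : F₀ →+* F) = Ow → ∃ c, W = V c)
    (hinj : Function.Injective V) (hunif : ∀ c, ∃ ϖ : F, IsUnif (V c) ϖ) :
    PreModelK A₀ q (ι j) V where
  base := L.base
  transc := transcendental_map ι L.coord.transcendental
  finite := (isMVert_of L ι hdg hcomap hcomp).finite
  const_mem := (isMVert_of L ι hdg hcomap hcomp).const_mem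
  x_unit c := val_eq_one_of_comap (hcomap c) L.j_unit
  gauss c := (isMCoord_map L.coord ι (hcomap c)).transc
  inj := hinj
  unif := hunif
  qep₁ y h hy := by
    refine chart_qep (isMVert_of L ι hdg hcomap hcomp)
      (fun c => isMCoord_map L.coord ι (hcomap c)) y ?_ hy
    rwa [map_natCast]
  qep₂ y h hy := by
    refine chart_qep (isMVert_of L ι hdg hcomap hcomp).inv
      (fun c => (isMCoord_map L.coord ι (hcomap c)).inv) y ?_ hy
    rwa [map_natCast]

end One

/-! ### Part B: the abstract tower -/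

section Tow

variable {K : Type} [Field K] (T : Tower K) {q : ℕ} {A₀ : ValuationSubring K}
  {V0 : ValuationSubring (T.F 0)}

/-- **Block QEP at level `k`**, coordinate `x = j(z)`. -/
theorem preModelK_da (G : T.Gen q) (L : LvlJ A₀ q T.j V0) (k : ℕ) {κ : Type*} [Nonempty κ]
    {V : κ → ValuationSubring (T.F k)}
    (hcomap : ∀ c, (V c).comap (T.da k : T.F 0 →+* T.F k) = V0)
    (hcomp : ∀ W : ValuationSubring (T.F k), W.comap (T.da k : T.F 0 →+* T.F k) = V0 →
      ∃ c, W = V c)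
    (hinj : Function.Injective V) (hunif : ∀ c, ∃ ϖ : T.F k, IsUnif (V c) ϖ) :
    PreModelK A₀ q (T.da k T.j) V :=
  preModelK_of L (T.da k) (dg_da_ne_zero T G L.base.prime.ne_zero k) hcomap hcomp hinj hunif

/-- **Block QEP at level `k`**, coordinate `x = j(q^k z)`. -/
theorem preModelK_db (G : T.Gen q) (L : LvlJ A₀ q T.j V0) (k : ℕ) {κ : Type*} [Nonempty κ]
    {V : κ → ValuationSubring (T.F k)}
    (hcomap : ∀ c, (V c).comap (T.db k : T.F 0 →+* T.F k) = V0)
    (hcomp : ∀ W : ValuationSubring (T.F k), W.comap (T.db k : T.F 0 →+* T.F k) = V0 →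
      ∃ c, W = V c)
    (hinj : Function.Injective V) (hunif : ∀ c, ∃ ϖ : T.F k, IsUnif (V c) ϖ) :
    PreModelK A₀ q (T.db k T.j) V :=
  preModelK_of L (T.db k) (dg_db_ne_zero T G L.base.prime.ne_zero k) hcomap hcomp hinj hunif

end Tow

end Fermat.Agent.S45.Ind

end
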