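/-
S45, project CARAYOL-K, block QEP (helper113): `nodePre : NodePre`, the named input PRE of the assembly IND (`Ind/Defs.lean`, helper41),
and the level-`0` input `Ind.Lvl0J` for the concrete tower `S45.Mod.tower`.
-/
import Fermat.Agent.S45.Ind.Defs
import Fermat.Agent.S45.Ind.PreJ

set_option autoImplicit false

noncomputable section

namespace Fermat.Agent.S45.Ind

open Fermat.Agent.S18 Fermat.Agent.S36.BP Fermat.Agent.S45.Mod

/-- the two forms of the level-`0` input -/
theorem Lvl0J.toLvlJ {K : Type} [Field K] {T : Tower K} {A₀ : ValuationSubring K} {q : ℕ}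
    {V0 : ValuationSubring (T.F 0)} (hb : BaseHyp A₀ q) (L : Lvl0J T A₀ q V0) :
    LvlJ A₀ q T.j V0 where
  base := hb
  vert := L.vert
  coord := L.coord
  j_unit := L.j_unit

theorem LvlJ.toLvl0J {K : Type} [Field K] {T : Tower K} {A₀ : ValuationSubring K} {q : ℕ}
    {V0 : ValuationSubring (T.F 0)} (L : LvlJ A₀ q T.j V0) : Lvl0J T A₀ q V0 where
  vert := L.vert
  coord := L.coord
  j_unit := L.j_unit

/-- **Node PRE.** -/
theorem nodePre : NodePre := fun _ _ T _ _ _ hb G L k _ _ _ hinj hunif hcomap hcomp =>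
  preModelK_da T G (L.toLvlJ hb) k hcomap hcomp hinj hunif

end Fermat.Agent.S45.Ind

end
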