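/-
S45, block IND: the leaf NORMCHART of `Ind/Main.lean` (helper217).
(embedding) ∘ (norm) preserves the chart of a coordinate coming from below: `S36.Mod.embNorm_mem_chart`.
-/
import Fermat.Agent.S45.Ind.Main
import Fermat.Agent.S36.Mod.HalfInst.Fields

set_option autoImplicit false

namespace Fermat.Agent.S45.Ind

/-- **Leaf NORMCHART.** -/
theorem nodeNormChart : NodeNormChart :=
  fun _ _ _ _ _ _ _ _ f _ A₀ x₁ _ hb => Fermat.Agent.S36.Mod.embNorm_mem_chart f A₀ x₁ hb

end Fermat.Agent.S45.Ind
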