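/-
S45, project CARAYOL-K, block IND (owner helper41).  THE BLOCK IS CLOSED UP TO `NodePts`:
`nodeInd_of_pts : NodePts → (the statement `S45.Inst.NodeInd`, verbatim)`.
Inputs: `TabA.nodeTab` (helper87), `Ind.nodePre` (helper113), `Ind.nodeNormChart` (helper217), `Ind.nodeJInt` (helper161).
-/
import Fermat.Agent.S45.Ind.NodePre
import Fermat.Agent.S45.Ind.NormChart
import Fermat.Agent.S45.Ind.JIntNode
import Fermat.Agent.S45.TabA.Node

set_option autoImplicit false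

noncomputable section

namespace Fermat.Agent.S45.Ind

open Fermat.Agent.S45.Mod

/-- **Block IND**: `ModelK` at every level `k + 1 ≥ 3` of an abstract tower, from `NodePts`. -/
theorem nodeInd_of_pts (hPts : NodePts) :
    ∀ (K : Type) [Field K] (T : Tower K) (A₀ : ValuationSubring K) (q : ℕ)
      (V0 : ValuationSubring (T.F 0)) (V1 : Fin 2 → ValuationSubring (T.F 1))
      (V2 : Fin 3 → ValuationSubring (T.F 2)), T.Gen q → T.Base A₀ q V0 V1 V2 →
      PtsBase T A₀ q V0 V1 V2 → Lvl0J T A₀ q V0 → JInt T A₀ → ∀ k : ℕ, 2 ≤ k →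
      ∃ (x : T.F (k + 1)) (κ : Type) (_ : Finite κ) (V : κ → ValuationSubring (T.F (k + 1)))
        (ϖ : κ → T.F (k + 1)) (E : ℕ) (N0 : T.F (k + 1) →* T.F (k + 1)),
        Fermat.Agent.S45.K.ModelK A₀ q x V ϖ E (T.Ea k) (T.Eb k) (T.Na k) (T.Nb k) N0 := by
  intro K _ T A₀ q V0 V1 V2 G B hPB hL hJ k hk
  obtain ⟨k, rfl⟩ : ∃ k', k = k' + 1 := ⟨k - 1, by omega⟩
  obtain ⟨V, ϖ, E, h⟩ := modelK_of_nodes TabA.nodeTab nodePre hPts nodeNormChart nodeJInt G B hPB
    hL hJ (k := k) (by omega)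
  exact ⟨_, Fin (k + 3), inferInstance, V, ϖ, E, T.N0 k, h⟩

end Fermat.Agent.S45.Ind

end
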