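/-
S45, project CARAYOL-K, block IND (helper126, second team of helper41).  THE STRUCTURE `Pts.Geo` AT LEVEL `k + 2`, from the
contract of TAB (`TabOut.resA`, `resB`, `lvl1`, `lvl2`), `Tower.Base` (`comap_al1`, `comap_be1`) and `Tower.Gen`.

* `comap_st`  : `(W (k+1) b).comap (st T k i) = V1 (sty (k+1) b i)`        (`b ≤ k + 1`, `i ≤ k`);
* `comap_ww`  : `(W (k+2) b).comap (ww T k i) = V2 (wty (k+2) b i)`        (`b ≤ k + 2`, `i ≤ k`);
* `comap_dd`  : `(W (k+1) b).comap (T.dd (k+1) i) = V0`                    (`b ≤ k + 1`, `i ≤ k + 1`);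
* `geo`       : `Pts.Geo A₀ (k+2) .. (fam.V (k+2)) T.j (T.dd (k+2)) (st T (k+1)) (ww T k)`.
-/
import Fermat.Agent.S45.Ind.Maps
import Fermat.Agent.S45.Mod.JInt

set_option autoImplicit false

noncomputable section

namespace Fermat.Agent.S45.Ind

open Fermat.Agent.S18 Fermat.Agent.S36.BP Fermat.Agent.S45.K Fermat.Agent.S45.Mod

/-! ### arithmetic of the types -/

theorem sty_succ_of_le {k b i : ℕ} (hi : i ≤ k) : Pts.sty (k + 2) b i = Pts.sty (k + 1) (b - 1) i := by
  unfold Pts.sty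
  split_ifs <;> first | rfl | (exfalso; omega)

theorem sty_succ_self {k b : ℕ} : Pts.sty (k + 2) b (k + 1) = Pts.sty (k + 1) (min b (k + 1)) k := by
  unfold Pts.sty
  split_ifs <;> first | rfl | (exfalso; omega)

theorem wty_succ_of_le {k b i : ℕ} (hi : i ≤ k) : Pts.wty (k + 3) b i = Pts.wty (k + 2) (b - 1) i := by
  unfold Pts.wty
  split_ifs <;> first | rfl | (exfalso; omega)

theorem wty_succ_self {k b : ℕ} : Pts.wty (k + 3) b (k + 1) = Pts.wty (k + 2) (min b (k + 2)) k := by
  unfold Pts.wty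
  split_ifs <;> first | rfl | (exfalso; omega)

/-! ### restrictions -/

theorem comap_comp {F₁ F₂ F₃ : Type*} [Field F₁] [Field F₂] [Field F₃] (W : ValuationSubring F₃)
    (f : F₁ →+* F₂) (g : F₂ →+* F₃) (h : F₁ →+* F₃) (e : ∀ y, h y = g (f y)) :
    W.comap h = (W.comap g).comap f := by
  ext y
  show h y ∈ W ↔ g (f y) ∈ W
  rw [e]

variable {K : Type} [Field K] {T : Tower K} {q : ℕ} {V0 : ValuationSubring (T.F 0)}
  {V1 : Fin 2 → ValuationSubring (T.F 1)} {V2 : Fin 3 → ValuationSubring (T.F 2)} {fam : Fam T}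

/-- the steps -/
theorem comap_st (H : TabOut T q V0 V1 V2 fam) (k : ℕ) :
    ∀ b ≤ k + 1, ∀ i ≤ k,
      (fam.W (k + 1) b).comap (st T k i : T.F 1 →+* T.F (k + 1)) = V1 (Pts.sty (k + 1) b i) := by
  induction k with
  | zero =>
    intro b hb i hi
    obtain rfl : i = 0 := by omega
    have e : (fam.W 1 b).comap (st T 0 0 : T.F 1 →+* T.F 1) = fam.W 1 b := by
      ext y
      rfl
    rw [e]
    rcases Nat.le_one_iff_eq_zero_or_eq_one.1 hb with rfl | rfl
    · exact H.lvl1 0
    · exact H.lvl1 1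
  | succ k ih =>
    intro b hb i hi
    rcases Nat.lt_or_ge k i with h1 | h1
    · obtain rfl : i = k + 1 := by omega
      refine (comap_comp _ (st T k k : T.F 1 →+* T.F (k + 1)) (T.be (k + 1)).toRingHom _
        (fun y => st_succ_self T k y)).trans ?_
      rw [H.resB (k + 1) (by omega) b hb, ih _ (min_le_right _ _) k le_rfl, sty_succ_self]
    · refine (comap_comp _ (st T k i : T.F 1 →+* T.F (k + 1)) (T.al (k + 1)).toRingHom _
        (fun y => st_succ_of_le T h1 y)).trans ?_
      rw [H.resA (k + 1) (by omega) b hb, ih _ (by omega) i h1, sty_succ_of_le h1]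

/-- the windows -/
theorem comap_ww (H : TabOut T q V0 V1 V2 fam) (k : ℕ) :
    ∀ b ≤ k + 2, ∀ i ≤ k,
      (fam.W (k + 2) b).comap (ww T k i : T.F 2 →+* T.F (k + 2)) = V2 (Pts.wty (k + 2) b i) := by
  induction k with
  | zero =>
    intro b hb i hi
    obtain rfl : i = 0 := by omega
    have e : (fam.W 2 b).comap (ww T 0 0 : T.F 2 →+* T.F 2) = fam.W 2 b := by
      ext y
      rfl
    rw [e]
    obtain rfl | rfl | rfl : b = 0 ∨ b = 1 ∨ b = 2 := by omega
    · exact H.lvl2 0
    · exact H.lvl2 1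
    · exact H.lvl2 2
  | succ k ih =>
    intro b hb i hi
    rcases Nat.lt_or_ge k i with h1 | h1
    · obtain rfl : i = k + 1 := by omega
      refine (comap_comp _ (ww T k k : T.F 2 →+* T.F (k + 2)) (T.be (k + 2)).toRingHom _
        (fun y => ww_succ_self T k y)).trans ?_
      rw [H.resB (k + 2) (by omega) b hb, ih _ (min_le_right _ _) k le_rfl, wty_succ_self]
    · refine (comap_comp _ (ww T k i : T.F 2 →+* T.F (k + 2)) (T.al (k + 2)).toRingHom _
        (fun y => ww_succ_of_le T h1 y)).trans ?_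
      rw [H.resA (k + 2) (by omega) b hb, ih _ (by omega) i h1, wty_succ_of_le h1]

/-- level `0` -/
theorem comap_dd {A₀ : ValuationSubring K} (G : T.Gen q) (B : T.Base A₀ q V0 V1 V2)
    (H : TabOut T q V0 V1 V2 fam) (k : ℕ) :
    ∀ b ≤ k + 1, ∀ i ≤ k + 1,
      (fam.W (k + 1) b).comap (T.dd (k + 1) i : T.F 0 →+* T.F (k + 1)) = V0 := by
  intro b hb i hi
  rcases Nat.lt_or_ge k i with h1 | h1
  · obtain rfl : i = k + 1 := by omega
    refine (comap_comp _ (T.be 0).toRingHom (st T k k : T.F 1 →+* T.F (k + 1)) _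
      (fun y => (st_be G le_rfl y).symm)).trans ?_
    rw [comap_st H k b hb k le_rfl, B.comap_be1]
  · refine (comap_comp _ (T.al 0).toRingHom (st T k i : T.F 1 →+* T.F (k + 1)) _
      (fun y => (st_al G h1 y).symm)).trans ?_
    rw [comap_st H k b hb i h1, B.comap_al1]

/-- **The structure `Pts.Geo` at level `k + 2`.** -/
theorem geo {A₀ : ValuationSubring K} (G : T.Gen q) (B : T.Base A₀ q V0 V1 V2)
    (H : TabOut T q V0 V1 V2 fam) (k : ℕ) :
    Pts.Geo A₀ (k + 2) (T.al 0) (T.be 0) (T.al 1) (T.be 1) V0 V1 V2 (fam.V (k + 2)) T.j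
      (T.dd (k + 2)) (st T (k + 1)) (ww T k) where
  st_al i hi y := st_al G (by omega) y
  st_be i hi y := st_be G (by omega) y
  w_al i hi y := ww_al G (by omega) y
  w_be i hi y := ww_be G (by omega) y
  comap_d c i hi := comap_dd G B H (k + 1) c (by omega) i hi
  comap_st c i hi := comap_st H (k + 1) c (by omega) i (by omega)
  comap_w c i hi := comap_ww H k c (by omega) i (by omega)
  jint := by
    obtain ⟨ψ, hψ, hk⟩ := G.kron
    exact JInt.jint_of_steps A₀ (T.al 0) (T.be 0) T.j (T.dd (k + 2)) (st T (k + 1))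
      (fun i hi y => st_al G (by omega) y) (fun i hi y => st_be G (by omega) y)
      B.base.prime.ne_zero hψ hk

end Fermat.Agent.S45.Ind

end
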