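/-
S45, project CARAYOL-K, block IND: **NODE TAB** (helper80).
`nodeTab : NodeTab` : every field of the contract `TabOut` (`Ind/Defs.lean`) from
* TAB1: `Tab/Base.lean : exists_sys` (one coherent family of tables, `Steps` at every level `≥ 3`),
* TAB2: `Tab2/Dense.lean : Sys.denseA, Sys.denseB`, `Tab2/Win.lean : Sys.comap_dd`.
The explicit uniformiser (`unif_mid`): `ϖ k b = j(q^(a+m) z) - j(q^(a-m) z)` by the recursion `nextUnif`, and `j(q^(a-m) z)` is a unit.
-/
import Fermat.Agent.S45.Ind.Defs
import Fermat.Agent.S45.Tab.Base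

set_option autoImplicit false

noncomputable section

namespace Fermat.Agent.S45.Ind

open Fermat.Agent.S18 Fermat.Agent.S36 Fermat.Agent.S36.BP Fermat.Agent.S45.K Fermat.Agent.S45.Mod
  Fermat.Agent.S45.Tab

namespace NT

/-- a uniformiser divided by a unit is a uniformiser. -/
theorem isUnif_div_unit {F : Type*} [Field F] {W : ValuationSubring F} {ϖ u : F}
    (h : IsUnif W ϖ) (hu : W.valuation u = 1) : IsUnif W (ϖ / u) := by
  have key : ∀ (y : F) (n : ℤ), W.valuation (y / (ϖ / u) ^ n) = W.valuation (y / ϖ ^ n) := by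
    intro y n
    rw [map_div₀, map_zpow₀, map_div₀, hu, div_one, map_div₀, map_zpow₀]
  refine ⟨?_, ?_, ?_⟩
  · rw [← W.valuation_le_one_iff, map_div₀, hu, div_one, W.valuation_le_one_iff]
    exact h.mem
  · rw [← W.valuation_le_one_iff, map_inv₀, map_div₀, hu, div_one, ← map_inv₀,
      W.valuation_le_one_iff]
    exact h.inv_notMem
  · intro y hy
    obtain ⟨n, h1, h2⟩ := h.exists_zpow y hy
    refine ⟨n, ?_, ?_⟩
    · rw [← W.valuation_le_one_iff, key, W.valuation_le_one_iff]
      exact h1
    · rw [← W.valuation_le_one_iff, map_inv₀, key, ← map_inv₀, W.valuation_le_one_iff]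
      exact h2

variable {T : Tab.Tower} {x : T.F 0} {ϖ : ∀ k, ℕ → T.F k}

/-- the explicit uniformisers of the middle components. -/
theorem unif_eq (h2 : ϖ 2 1 = T.xs x 2 2 - T.xs x 2 0)
    (hU : ∀ k, 1 ≤ k → ϖ (k + 2) = nextUnif T x k (ϖ (k + 1))) :
    ∀ k b, 0 < b → b < k →
      ϖ k b = T.xs x k (k - b + min b (k - b)) - T.xs x k (k - b - min b (k - b))
  | 0, b, _, hb => by omega
  | 1, b, _, hb => by omega
  | 2, b, h0, hb => by
    obtain rfl : b = 1 := by omega
    exact h2
  | n + 3, b, h0, hb => by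
    rw [hU (n + 1) (by omega), nextUnif]
    split_ifs with c1 c2
    · rw [unif_eq h2 hU (n + 2) (b - 1) (by omega) (by omega), map_sub,
        al_xs T x (n + 2) _ (by omega), al_xs T x (n + 2) _ (by omega)]
      congr 2 <;> omega
    · rw [unif_eq h2 hU (n + 2) b h0 (by omega), map_sub,
        be_xs T x (n + 2) _ (by omega), be_xs T x (n + 2) _ (by omega)]
      congr 2 <;> omega
    · congr 2 <;> omega

end NT

/-- **Node TAB.** -/
theorem nodeTab : NodeTab := by
  intro K _ M A₀ q V0 V1 V2 G B _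
  obtain ⟨ψ, W, ϖ, H, h1, p1, h2, p2, P, D, S, hU⟩ := exists_sys G B
  have hdA : ∀ k, (ofMod M G).dA k = (M.da k : M.F 0 →+* M.F k) :=
    fun k => RingHom.ext (ofMod_dA G k)
  refine ⟨⟨W, ϖ⟩, ?_⟩
  refine
    { lvl1 := ?_
      lvl2 := ?_
      complete := ?_
      inj := fun k hk => (P.tab hk).inj
      unif := fun k hk => (P.tab hk).unif
      ram := fun k hk => (P.tab hk).ram
      unif_zero := fun k hk => (P.tab hk).unif_zero
      unif_top := fun k hk => (P.tab hk).unif_top
      resA := fun k hk => (P.compat hk).resA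
      resB := fun k hk => (P.compat hk).resB
      rad := ?_
      radB := fun k hk => (P k hk).radB
      radA := fun k hk => (P k hk).radA
      dense_lo := ?_
      dense_hi := ?_
      unif_mid := ?_ }
  · intro c
    show W 1 c = V1 c
    rw [h1]
    fin_cases c <;> rfl
  · intro c
    show W 2 c = V2 c
    rw [h2]
    fin_cases c <;> rfl
  · intro k hk W' hW'
    rw [← hdA k] at hW'
    exact (P.tab hk).complete W' hW'
  · intro k hk b hb
    obtain ⟨n, rfl⟩ : ∃ n, k = n + 1 := ⟨k - 1, by omega⟩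
    have Sn := S n (by omega)
    rcases lt_trichotomy (n + 2) (2 * b) with c | c | c
    · exact Or.inl (Sn.hi b hb c).rad
    · exact Or.inl (Sn.mid b c).rad
    · exact Or.inr (Sn.lo b c).rad
  · intro k hk b _ h y hy
    obtain ⟨y', hy'⟩ := P.denseA H D hk h y hy
    exact ⟨y', by rw [← ofMod_dA G]; exact hy'⟩
  · intro k hk b hb h y hy
    obtain ⟨y', hy'⟩ := P.denseB H D hk hb h y hy
    exact ⟨y', by rw [← ofMod_dB G]; exact hy'⟩
  · intro k b h0 hb
    have hk : 1 ≤ k := by omega
    have e2 : ϖ 2 1 = (ofMod M G).xs M.j 2 2 - (ofMod M G).xs M.j 2 0 := by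
      rw [p2, ofMod_xs, ofMod_xs]
      rfl
    have e := NT.unif_eq (T := ofMod M G) (x := M.j) (ϖ := ϖ) e2 hU k b h0 hb
    rw [ofMod_xs, ofMod_xs] at e
    have hu : (W k b).valuation (M.dd k (k - b - min b (k - b)) M.j) = 1 := by
      have := (co_eq_one_iff (P.comap_dd H hk (by omega : k - b - min b (k - b) ≤ k) hb.le)
        M.j).2 B.j_unit
      rwa [ofMod_dd] at this
    have hne : M.dd k (k - b - min b (k - b)) M.j ≠ 0 := by
      intro h
      rw [h, map_zero] at hu
      exact zero_ne_one hu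
    have hU' := NT.isUnif_div_unit ((P.tab hk).unif b hb.le) hu
    rw [e] at hU'
    have e3 : (M.X k (k - b + min b (k - b)) - M.X k (k - b - min b (k - b))) /
        M.dd k (k - b - min b (k - b)) M.j =
        M.dd k (k - b + min b (k - b)) M.j / M.dd k (k - b - min b (k - b)) M.j - 1 := by
      show (M.dd k (k - b + min b (k - b)) M.j - M.dd k (k - b - min b (k - b)) M.j) / _ = _
      rw [sub_div, div_self hne]
    rw [e3] at hU'
    exact hU'

end Fermat.Agent.S45.Ind

end
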