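/-
S45, project CARAYOL-K, blocks TAB / IND (helper192).  **`nodeTabA : Ind.NodeTab`** from helper87's table `TabA.tbl`
(`S45/TabA/{Type,Case,Table}.lean`, directly on `Mod.Tower`, index `a` = number of letters `F`).
`fam.W (n+1) b` = THE valuation ring of type `a = n + 1 - b`, `fam.ϖ k b = TabA.unif T q k (k - b)`.
-/
import Fermat.Agent.S45.TabA.Table
import Fermat.Agent.S45.Ind.Maps

set_option autoImplicit false

noncomputable section

namespace Fermat.Agent.S45.Ind.NTA

open Fermat.Agent.S18 Fermat.Agent.S36.BP Fermat.Agent.S45.K Fermat.Agent.S45.Mod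
  Fermat.Agent.S45.TabA Fermat.Agent.S45.Tab

/-! ### Generalities -/

/-- being a uniformiser only depends on the valuation -/
theorem isUnif_congr {F : Type*} [Field F] {W : ValuationSubring F} {z z' : F} (h : IsUnif W z)
    (hv : W.valuation z' = W.valuation z) : IsUnif W z' := by
  refine ⟨?_, ?_, ?_⟩
  · rw [← W.valuation_le_one_iff, hv, W.valuation_le_one_iff]
    exact h.mem
  · intro h1
    apply h.inv_notMem
    rw [← W.valuation_le_one_iff, map_inv₀] at h1 ⊢
    rwa [hv] at h1
  · intro y hy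
    obtain ⟨n, h1, h2⟩ := h.exists_zpow y hy
    refine ⟨n, ?_, ?_⟩
    · rw [← W.valuation_le_one_iff, map_div₀, map_zpow₀] at h1 ⊢
      rwa [hv]
    · rw [← W.valuation_le_one_iff, map_inv₀, map_div₀, map_zpow₀] at h2 ⊢
      rwa [hv]

variable {K : Type} [Field K] {T : Tower K} {A₀ : ValuationSubring K} {q : ℕ}
  {V0 : ValuationSubring (T.F 0)} {V1 : Fin 2 → ValuationSubring (T.F 1)}
  {V2 : Fin 3 → ValuationSubring (T.F 2)}

theorem be_dd (G : T.Gen q) (y : T.F 0) : ∀ (k i : ℕ), i ≤ k →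
    T.be k (T.dd k i y) = T.dd (k + 1) (i + 1) y
  | 0, i, hi => by
    obtain rfl : i = 0 := by omega
    rw [T.dd_succ_self]
  | k + 1, i, hi => by
    rcases Nat.lt_or_ge k i with h1 | h1
    · obtain rfl : i = k + 1 := by omega
      rw [T.dd_succ_self (k + 1)]
    · rw [T.dd_succ_of_le h1, ← G.comm, be_dd G y k i h1,
        T.dd_succ_of_le (k := k + 1) (i := i + 1) (by omega)]

/-- the explicit form of helper87's uniformisers -/
theorem unif_eq (G : T.Gen q) : ∀ (L a : ℕ), 0 < a → a < L →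
    TabA.unif T q L a = T.dd L (a + min a (L - a)) T.j - T.dd L (a - min a (L - a)) T.j
  | 0, a, _, h1 => by omega
  | L + 1, a, h0, h1 => by
    rcases lt_trichotomy (2 * a) (L + 1) with h | h | h
    · have e1 : a + min a (L + 1 - a) = a + min a (L - a) := by omega
      have e2 : a - min a (L + 1 - a) = a - min a (L - a) := by omega
      rw [TabA.unif_lt T q h, unif_eq G L a h0 (by omega), map_sub, e1, e2,
        T.dd_succ_of_le (by omega), T.dd_succ_of_le (by omega)]
    · have e1 : a + min a (L + 1 - a) = L + 1 := by omega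
      have e2 : a - min a (L + 1 - a) = 0 := by omega
      rw [TabA.unif_mid T q (by omega) h, e1, e2, dd_self, dd_zero_right]
    · have e1 : a + min a (L + 1 - a) = (a - 1 + min (a - 1) (L - (a - 1))) + 1 := by omega
      have e2 : a - min a (L + 1 - a) = (a - 1 - min (a - 1) (L - (a - 1))) + 1 := by omega
      rw [TabA.unif_gt T q h (by omega), unif_eq G L (a - 1) (by omega) (by omega), map_sub, e1, e2,
        be_dd G _ _ _ (by omega), be_dd G _ _ _ (by omega)]

theorem mem_dd_iff (B : T.Base A₀ q V0 V1 V2) (y : T.F 0) :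
    ∀ {n a : ℕ} {W : ValuationSubring (T.F (n + 1))}, HasType T V1 n a W → ∀ i ≤ n + 1,
      (T.dd (n + 1) i y ∈ W ↔ y ∈ V0)
  | 0, a, W, h, i, hi => by
    have h' : W = V1 (if a = 0 then 1 else 0) := h
    rcases Nat.eq_zero_or_pos i with rfl | h0
    · rw [T.dd_succ_of_le le_rfl, h']
      exact cm_mem_iff (B.comap_al1 _) y
    · obtain rfl : i = 0 + 1 := by omega
      rw [T.dd_succ_self, h']
      exact cm_mem_iff (B.comap_be1 _) y
  | n + 1, a, W, h, i, hi => by
    rcases Nat.lt_or_ge (n + 1) i with h1 | h1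
    · obtain rfl : i = n + 1 + 1 := by omega
      rw [T.dd_succ_self]
      exact mem_dd_iff B y h.2 (n + 1) le_rfl
    · rw [T.dd_succ_of_le h1]
      exact mem_dd_iff B y h.1 i h1

theorem comap_dd (B : T.Base A₀ q V0 V1 V2) {n a : ℕ} {W : ValuationSubring (T.F (n + 1))}
    (h : HasType T V1 n a W) {i : ℕ} (hi : i ≤ n + 1) : W.comap (T.dd (n + 1) i).toRingHom = V0 := by
  ext y
  exact mem_dd_iff B y h i hi

/-! ### The table at all levels `≥ 1` -/

theorem tbl_zero (B : T.Base A₀ q V0 V1 V2) : Tbl T q V1 0 where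
  ex := fun a _ => ⟨_, rfl⟩
  uniq := fun a _ W W' h h' => (show W = _ from h).trans (show W' = _ from h').symm
  loc := fun a ha W h => by
    have h' : W = V1 (if a = 0 then 1 else 0) := h
    have hu : TabA.unif T q (0 + 1) a = (q : T.F (0 + 1)) := TabA.unif_edge T q (by omega)
    refine ⟨?_, ⟨1, le_rfl, ?_, ?_⟩, ?_, ?_⟩
    · rw [hu, h']
      exact B.unif1 _
    · exact Nat.one_le_pow _ _ B.base.prime.pos
    · rw [hu, pow_one]
    · intro h2 y hy
      have h0 : a ≠ 0 := by omega
      rw [h', if_neg h0] at hy ⊢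
      exact B.denseF y hy
    · intro h2 y hy
      have h0 : a = 0 := by omega
      rw [h', if_pos h0] at hy ⊢
      exact B.denseV y hy

theorem tblAll (G : T.Gen q) (B : T.Base A₀ q V0 V1 V2) : ∀ n : ℕ, Tbl T q V1 n
  | 0 => tbl_zero B
  | n + 1 => tbl G B n

variable (T V1) in
/-- THE valuation ring of type `a` of level `n + 1` -/
def Wt (n a : ℕ) : ValuationSubring (T.F (n + 1)) :=
  open Classical in if h : ∃ W, HasType T V1 n a W then h.choose else ⊤

theorem Wt_spec {n a : ℕ} (h : ∃ W, HasType T V1 n a W) : HasType T V1 n a (Wt T V1 n a) := by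
  rw [Wt, dif_pos h]
  exact h.choose_spec

variable (T V0 V1) in
/-- the valuation rings, index `b` = number of letters `V` -/
def famW : ∀ k : ℕ, ℕ → ValuationSubring (T.F k)
  | 0, _ => V0
  | n + 1, b => Wt T V1 n (n + 1 - b)

variable (T q V0 V1) in
/-- the family -/
def fam : Fam T where
  W := famW T V0 V1
  ϖ := fun k b => TabA.unif T q k (k - b)

theorem hasType_famW (G : T.Gen q) (B : T.Base A₀ q V0 V1 V2) (n b : ℕ) :
    HasType T V1 n (n + 1 - b) (famW T V0 V1 (n + 1) b) :=
  Wt_spec ((tblAll G B n).ex _ (by omega))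

theorem eq_famW (G : T.Gen q) (B : T.Base A₀ q V0 V1 V2) {n a b : ℕ}
    {W : ValuationSubring (T.F (n + 1))} (h : HasType T V1 n a W) (hab : a = n + 1 - b) :
    W = famW T V0 V1 (n + 1) b := by
  subst hab
  exact (tblAll G B n).uniq _ (by omega) _ _ h (hasType_famW G B n b)

theorem IsRad.toRad {F₁ F : Type*} [Field F₁] [Field F] {φ : F₁ →+* F} {N : F →* F}
    {U : ValuationSubring F₁} {W : ValuationSubring F} (h : IsRad q φ N U W) : Rad q N W :=
  ⟨h.ord, h.res⟩

/-- **The contract of block TAB.** -/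
theorem tabOut (G : T.Gen q) (B : T.Base A₀ q V0 V1 V2) :
    TabOut T q V0 V1 V2 (fam T q V0 V1) where
  lvl1 := fun c => by
    have h : famW T V0 V1 (0 + 1) c = V1 (if 0 + 1 - (c : ℕ) = 0 then 1 else 0) :=
      hasType_famW G B 0 c
    show famW T V0 V1 (0 + 1) c = V1 c
    rw [h]
    fin_cases c <;> rfl
  lvl2 := fun c => by
    refine (eq_famW G B (hasType_V2' B c) ?_).symm
    fin_cases c <;> rfl
  complete := fun k hk W' hW' => by
    obtain ⟨n, rfl⟩ : ∃ n, k = n + 1 := ⟨k - 1, by omega⟩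
    obtain ⟨a, ha, h⟩ := (complete_both G B n).1 W' hW'
    exact ⟨n + 1 - a, by omega, eq_famW G B h (by omega)⟩
  inj := fun k hk b hb b' hb' e => by
    obtain ⟨n, rfl⟩ : ∃ n, k = n + 1 := ⟨k - 1, by omega⟩
    have h1 := hasType_famW G B n b
    have h2 := hasType_famW G B n b'
    have e' : famW T V0 V1 (n + 1) b = famW T V0 V1 (n + 1) b' := e
    rw [e'] at h1
    have := HasType.eq_of B (by omega) (by omega) h1 h2
    omega
  unif := fun k hk b hb => by
    obtain ⟨n, rfl⟩ : ∃ n, k = n + 1 := ⟨k - 1, by omega⟩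
    exact ((tblAll G B n).loc _ (by omega) _ (hasType_famW G B n b)).unif
  ram := fun k hk b hb => by
    obtain ⟨n, rfl⟩ : ∃ n, k = n + 1 := ⟨k - 1, by omega⟩
    exact ((tblAll G B n).loc _ (by omega) _ (hasType_famW G B n b)).ram
  unif_zero := fun k _ => TabA.unif_edge T q (Or.inr (by omega))
  unif_top := fun k _ => TabA.unif_edge T q (Or.inl (by omega))
  resA := fun k hk b hb => by
    obtain ⟨n, rfl⟩ : ∃ n, k = n + 1 := ⟨k - 1, by omega⟩
    exact eq_famW G B (hasType_famW G B (n + 1) b).1 (by omega)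
  resB := fun k hk b hb => by
    obtain ⟨n, rfl⟩ : ∃ n, k = n + 1 := ⟨k - 1, by omega⟩
    exact eq_famW G B (hasType_famW G B (n + 1) b).2 (by omega)
  rad := fun k hk b hb => by
    obtain ⟨m, rfl⟩ : ∃ m, k = m + 2 := ⟨k - 2, by omega⟩
    have h := hasType_famW G B (m + 2) b
    rcases Nat.le_total (2 * (m + 2 + 1 - b)) (m + 3) with h2 | h2
    · exact Or.inl (IsRad.toRad (rad_al G B (tblAll G B (m + 1)) h h2))
    · exact Or.inr (IsRad.toRad (rad_be G B (tblAll G B (m + 1)) h h2 (by omega)))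
  radB := fun k hk => by
    rcases k with _ | _ | m
    · omega
    · have e : famW T V0 V1 (1 + 1) ((0 : Fin 3) : ℕ) = V2 0 :=
        (eq_famW G B (hasType_V2' B 0) rfl).symm
      show Rad q (T.Nb 1) (famW T V0 V1 (1 + 1) 0)
      have e' : famW T V0 V1 (1 + 1) 0 = V2 0 := e
      rw [e']
      exact ⟨B.halfβ.ord_b, B.halfβ.res_b⟩
    · exact IsRad.toRad (rad_be G B (tblAll G B (m + 1)) (hasType_famW G B (m + 2) 0) (by omega)
        (by omega))
  radA := fun k hk => by
    rcases k with _ | _ | m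
    · omega
    · have e : famW T V0 V1 (1 + 1) ((2 : Fin 3) : ℕ) = V2 2 :=
        (eq_famW G B (hasType_V2' B 2) rfl).symm
      show Rad q (T.Na 1) (famW T V0 V1 (1 + 1) 2)
      have e' : famW T V0 V1 (1 + 1) 2 = V2 2 := e
      rw [e']
      exact ⟨B.halfα.ord_b, B.halfα.res_b⟩
    · exact IsRad.toRad (rad_al G B (tblAll G B (m + 1)) (hasType_famW G B (m + 2) (m + 2 + 1))
        (by omega))
  dense_lo := fun k hk b hb h2 => by
    obtain ⟨n, rfl⟩ : ∃ n, k = n + 1 := ⟨k - 1, by omega⟩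
    exact ((tblAll G B n).loc _ (by omega) _ (hasType_famW G B n b)).dense_a (by omega)
  dense_hi := fun k hk b hb h2 => by
    obtain ⟨n, rfl⟩ : ∃ n, k = n + 1 := ⟨k - 1, by omega⟩
    exact ((tblAll G B n).loc _ (by omega) _ (hasType_famW G B n b)).dense_b (by omega)
  unif_mid := fun k b h0 hk => by
    obtain ⟨n, rfl⟩ : ∃ n, k = n + 1 := ⟨k - 1, by omega⟩
    have h := hasType_famW G B n b
    have hU := ((tblAll G B n).loc _ (by omega) _ h).unif
    rw [unif_eq G (n + 1) (n + 1 - b) (by omega) (by omega)] at hU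
    have e1 : n + 1 - b + min (n + 1 - b) (n + 1 - (n + 1 - b)) = n + 1 - b + min b (n + 1 - b) := by
      omega
    have e2 : n + 1 - b - min (n + 1 - b) (n + 1 - (n + 1 - b)) = n + 1 - b - min b (n + 1 - b) := by
      omega
    rw [e1, e2] at hU
    have hy : (famW T V0 V1 (n + 1) b).valuation (T.dd (n + 1) (n + 1 - b - min b (n + 1 - b)) T.j) = 1 :=
      (cm_eq_one_iff (comap_dd B h (by omega)) T.j).2 B.j_unit
    have hy0 : T.dd (n + 1) (n + 1 - b - min b (n + 1 - b)) T.j ≠ 0 := by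
      intro h0
      rw [h0, map_zero] at hy
      exact zero_ne_one hy
    refine isUnif_congr hU ?_
    show (famW T V0 V1 (n + 1) b).valuation _ = (famW T V0 V1 (n + 1) b).valuation _
    rw [div_sub_one hy0, map_div₀, hy, div_one]

/-- **Node TAB.** -/
theorem nodeTabA : NodeTab := fun _ _ T _ q V0 V1 _ G B _ => ⟨fam T q V0 V1, tabOut G B⟩

end Fermat.Agent.S45.Ind.NTA

end
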