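/-
S45, project CARAYOL-K, block QEP (helper113): THE LEVEL-0 INPUT `Ind.LvlJ` FOR THE MODULAR INSTANCE.

`S : S36.Mod.Setup K K'`, `A₀ = S.B`, `Ow = S.V0`, `j = jK K S.N0 = JK K S.N0 1 _` (the `j` of `S45.Mod.tower`).
-/
import Fermat.Agent.S36.Inst.Pre
import Fermat.Agent.S36.Inst.Base
import Fermat.Agent.S45.Ind.PreJ

set_option autoImplicit false
set_option linter.unusedSectionVars false

noncomputable section

namespace Fermat.Agent.S45.Ind

open ModularCurve Fermat.Agent.S24 Fermat.Agent.S18 Fermat.Agent.S36.Mod Fermat.Agent.S36.BP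
  Fermat.Agent.S36.Inst

theorem val_eq_one_of_comap_rev {F₀ F : Type*} [Field F₀] [Field F] {ι : F₀ →+* F}
    {W : ValuationSubring F} {Ow : ValuationSubring F₀} (h : W.comap ι = Ow) {y : F₀}
    (hy : W.valuation (ι y) = 1) : Ow.valuation y = 1 := by
  have hy0 : y ≠ 0 := by
    rintro rfl
    rw [map_zero, map_zero] at hy
    exact zero_ne_one hy
  have h1 : y ∈ Ow := (mem_iff_of_comap h y).1 ((W.valuation_le_one_iff _).1 hy.le)
  have h2 : y⁻¹ ∈ Ow := by
    refine (mem_iff_of_comap h _).1 ((W.valuation_le_one_iff _).1 ?_)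
    rw [map_inv₀, map_inv₀, hy, inv_one]
  have h3 : Ow.valuation y ≤ 1 := (Ow.valuation_le_one_iff _).2 h1
  have h4 : Ow.valuation y⁻¹ ≤ 1 := (Ow.valuation_le_one_iff _).2 h2
  rw [map_inv₀] at h4
  have h5 : Ow.valuation y ≠ 0 := (Valuation.ne_zero_iff _).2 hy0
  exact le_antisymm h3 ((inv_le_one₀ (zero_lt_iff.2 h5)).1 h4)

variable {K K' : Type*} [Field K] [Field K'] [Algebra ℚ K] [Algebra ℚ K'] [Algebra K Kbar]
  [Algebra K' Kbar] (S : Setup K K')

theorem jK_unit : S.V0.valuation (jK K S.N0) = 1 := by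
  refine val_eq_one_of_comap_rev (S.comap_a 0) ?_
  have e : (S.ia : S.F0 →+* S.F2) (jK K S.N0) = S.J2one := S.ia_j0
  rw [e]
  exact S.J2one_unit 0

/-- **The level-0 input of block QEP**, `j = jK K S.N0`. -/
theorem lvl0J (hb : BaseHyp S.B S.q) : LvlJ S.B S.q (jK K S.N0) S.V0 where
  base := hb
  vert := pre_isVert_j S
  coord := pre_isMCoord_j0 S
  j_unit := jK_unit S

/-- **The level-0 input of block QEP**, `j = JK K S.N0 1 _` (as in `S45.Mod.tower`). -/
theorem lvl0J' (hb : BaseHyp S.B S.q) : LvlJ S.B S.q (JK K S.N0 1 (one_dvd _)) S.V0 := by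
  rw [← jK_eq_JK]
  exact lvl0J S hb

end Fermat.Agent.S45.Ind

end
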