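/-
S45, project CARAYOL-K, block QEP (helper113): the level-`0` input `Ind.Lvl0J` (contract of `Ind/Defs.lean`) and `Ind.LvlJ`
for THE CONCRETE TOWER `S45.Mod.tower K S.N0 S.q x₀` attached to `S : S36.Mod.Setup K K'`  (`A₀ = S.B`, `V0 = S.V0`).
-/
import Fermat.Agent.S45.Mod.Inst
import Fermat.Agent.S45.Ind.NodePre
import Fermat.Agent.S45.Ind.PreJInst

set_option autoImplicit false
set_option linter.unusedSectionVars false

noncomputable section

namespace Fermat.Agent.S45.Ind

open ModularCurve Fermat.Agent.S24 Fermat.Agent.S18 Fermat.Agent.S36.Mod Fermat.Agent.S36.BP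
  Fermat.Agent.S45.Mod

variable {K : Type} {K' : Type*} [Field K] [Field K'] [Algebra ℚ K] [Algebra ℚ K'] [Algebra K Kbar]
  [Algebra K' Kbar] (S : Setup K K')

/-- `S.V0` as a valuation ring of the level `0` of the concrete tower -/
abbrev towerV0 (x₀ : FK K S.N0) : ValuationSubring ((tower K S.N0 S.q x₀).F 0) := S.V0

theorem lvlJ_tower (hb : BaseHyp S.B S.q) (x₀ : FK K S.N0) :
    LvlJ S.B S.q (tower K S.N0 S.q x₀).j (towerV0 S x₀) :=
  lvl0J' S hb

theorem lvl0J_tower (hb : BaseHyp S.B S.q) (x₀ : FK K S.N0) :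
    Lvl0J (tower K S.N0 S.q x₀) S.B S.q S.V0 :=
  (lvlJ_tower S hb x₀).toLvl0J

end Fermat.Agent.S45.Ind

end
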