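/-
S45, project CARAYOL-K, block QEP, second file (helper113): THE FORMAL PART OF THE POINTS, for an arbitrary finite index type `κ`
(port `Fin 3 → κ` of `BAD/Model/Main/{ThroughAway,Fields}.lean` and of `BAD/Model/PreLoc.lean`).

At every closed point `R` of the two charts of `x = ιa x₀` (`BAD.Model.IsMPt A₀ q x R`):
* `IsPt A₀ R`;
* `Through R (V c) ∨ Away R (V c)` for every `c` (needs: the residue field of `V c` is that of level `0` via `ιa` or via `ιb`);
* `LocQep q V R` (local `q`-expansion principle).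
These are the fields `qep`, `ta` of `S45.Pts.Ind` and the field `through_or_away` of `S45.K.PtHypK`.
-/
import Fermat.Agent.BAD.Model.Change
import Fermat.Agent.S36.BP.Build.ThroughAway
import Fermat.Agent.S36.BP.Build.UpDense
import Fermat.Agent.S36.BP.Build.UpLoc
import Fermat.Agent.S45.Ind.Qep

set_option autoImplicit false
set_option linter.style.haveILetI false

noncomputable section

namespace Fermat.Agent.S45.Ind

open Fermat.Agent.S18 Fermat.Agent.S36.BP Fermat.Agent.S36.BP.Build Fermat.Agent.S36.Norm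
  Fermat.Agent.BAD.Model IntermediateField

variable {K₀ F₀ F : Type*} [Field K₀] [Field F₀] [Field F] [Algebra K₀ F₀] [Algebra K₀ F]
  {A₀ : ValuationSubring K₀} {q : ℕ} {κ : Type*} {V : κ → ValuationSubring F} {R : Subring F}
  {x₀ : F₀} {Ow : ValuationSubring F₀}

/-- one chart -/
theorem throughAway_chartK [Finite κ] (ι : F₀ →ₐ[K₀] F)
    (halg : ∀ z : F, (ι : F₀ →+* F).IsIntegralElem z)
    (hU : IsUnif Ow (q : F₀)) {z₀ : F₀}
    (h₀ : IsChart Ow (q : F₀) (chart A₀.toSubring z₀))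
    (hcomap : ∀ c, (V c).comap (ι : F₀ →+* F) = Ow)
    (hcomp : ∀ W : ValuationSubring F, W.comap (ι : F₀ →+* F) = Ow → ∃ c, W = V c)
    (hinj : Function.Injective V) (hunif : ∀ c, ∃ ϖ : F, IsUnif (V c) ϖ) (c : κ)
    (hf : ∀ y ∈ V c, ∃ y' : F₀, (V c).valuation (ι y' - y) < 1)
    (𝔫 : Ideal (chart A₀.toSubring (ι z₀))) [𝔫.IsMaximal] :
    Through (locSub (chart A₀.toSubring (ι z₀)) 𝔫) (V c) ∨
      Away (locSub (chart A₀.toSubring (ι z₀)) 𝔫) (V c) := by
  by_cases h : ∃ b : chart A₀.toSubring (ι z₀), (V c).valuation (b : F) < 1 ∧ b ∉ 𝔫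
  · exact Or.inr (away_of_not_le h)
  · left
    have hP : ∀ b : chart A₀.toSubring (ι z₀), (V c).valuation (b : F) < 1 → b ∈ 𝔫 := by
      intro b hb
      by_contra hbn
      exact h ⟨b, hb, hbn⟩
    have hB : ∀ z : F, z ∈ chart A₀.toSubring (ι z₀) ↔
        IsIntegral ((chart A₀.toSubring z₀).map (ι : F₀ →+* F)) z :=
      mem_chart_map_iff ι A₀.toSubring z₀
    have hle : ∀ b ∈ chart A₀.toSubring (ι z₀), b ∈ V c :=
      chart_le_of_comap ι h₀.le (hcomap c)
    choose ϖ' hϖ' using hunif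
    refine through_of_le hle hP
      (loc_of_level0 (ι : F₀ →+* F) V halg hU h₀ hcomp hcomap ϖ' hϖ' hinj hB c)
      (reg_of_level0 (ι : F₀ →+* F) hU h₀ (hcomap c) hf (fun b hb => (hB b).1 hb) ?_ 𝔫 hP)
    rintro _ ⟨b₀, hb₀, rfl⟩
    exact map_mem_chart ι A₀.toSubring z₀ b₀ hb₀

/-- one chart, with a propositional equality for the coordinate -/
theorem throughAway_chartK' [Finite κ] (ι : F₀ →ₐ[K₀] F)
    (halg : ∀ z : F, (ι : F₀ →+* F).IsIntegralElem z)
    (hU : IsUnif Ow (q : F₀)) {z₀ : F₀}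
    (h₀ : IsChart Ow (q : F₀) (chart A₀.toSubring z₀))
    (hcomap : ∀ c, (V c).comap (ι : F₀ →+* F) = Ow)
    (hcomp : ∀ W : ValuationSubring F, W.comap (ι : F₀ →+* F) = Ow → ∃ c, W = V c)
    (hinj : Function.Injective V) (hunif : ∀ c, ∃ ϖ : F, IsUnif (V c) ϖ) (c : κ)
    (hf : ∀ y ∈ V c, ∃ y' : F₀, (V c).valuation (ι y' - y) < 1) {z : F} (hz : z = ι z₀)
    (𝔫 : Ideal (chart A₀.toSubring z)) [𝔫.IsMaximal] :
    Through (locSub (chart A₀.toSubring z) 𝔫) (V c) ∨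
      Away (locSub (chart A₀.toSubring z) 𝔫) (V c) := by
  subst hz
  exact throughAway_chartK ι halg hU h₀ hcomap hcomp hinj hunif c hf 𝔫

/-- one embedding `ι`, one component `V c` with `f (V c / Ow) = 1` along `ι`:
`Through` or `Away` at the points of the charts of `ι x₀`. -/
theorem through_or_away_ofK [Finite κ] (L : Lvl0 A₀ q x₀ Ow) (ι : F₀ →ₐ[K₀] F)
    (hdg : dg (ι : F₀ →+* F) ≠ 0)
    (hcomap : ∀ c, (V c).comap (ι : F₀ →+* F) = Ow)
    (hcomp : ∀ W : ValuationSubring F, W.comap (ι : F₀ →+* F) = Ow → ∃ c, W = V c)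
    (hinj : Function.Injective V) (hunif : ∀ c, ∃ ϖ : F, IsUnif (V c) ϖ) (c : κ)
    (hf : ∀ y ∈ V c, ∃ y' : F₀, (V c).valuation (ι y' - y) < 1)
    (hR : IsMPt A₀ q (ι x₀) R) : Through R (V c) ∨ Away R (V c) := by
  have halg := isIntegralElem_of_dg (ι : F₀ →+* F) hdg
  rcases hR with hR | hR
  · obtain ⟨𝔫, h𝔫, -, rfl⟩ := hR
    exact throughAway_chartK ι halg L.unif L.chart₁ hcomap hcomp hinj hunif c hf 𝔫
  · obtain ⟨𝔫, h𝔫, -, rfl⟩ := hR
    exact throughAway_chartK' ι halg L.unif L.chart₂ hcomap hcomp hinj hunif c hf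
      (map_inv₀ ι x₀).symm 𝔫

/-- the local form of the `q`-expansion principle, one chart, arbitrary finite index type. -/
theorem qep_loc_ofK [Finite κ] {x : F} (hB : ∀ c, ∀ b ∈ chart A₀.toSubring x, b ∈ V c)
    (hU : ∀ c, ∃ ϖ : F, IsUnif (V c) ϖ)
    (hqep : ∀ y : F, (q : F) * y ∈ chart A₀.toSubring x → (∀ c, y ∈ V c) →
      y ∈ chart A₀.toSubring x)
    (𝔫 : Ideal (chart A₀.toSubring x)) [𝔫.IsMaximal]
    (hta : ∀ c, Through (locSub (chart A₀.toSubring x) 𝔫) (V c) ∨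
      Away (locSub (chart A₀.toSubring x) 𝔫) (V c)) :
    LocQep q V (locSub (chart A₀.toSubring x) 𝔫) := by
  classical
  haveI : Fintype κ := Fintype.ofFinite κ
  intro y h1 h2
  have hpr : 𝔫.IsPrime := Ideal.IsMaximal.isPrime inferInstance
  have ht : ∀ c, ∃ t : chart A₀.toSubring x, t ∉ 𝔫 ∧ (t : F) * y ∈ V c := by
    intro c
    rcases hta c with hT | hA
    · refine ⟨1, fun h => hpr.ne_top ((Ideal.eq_top_iff_one _).2 h), ?_⟩
      rw [Subring.coe_one, one_mul]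
      exact h2 c hT
    · obtain ⟨a, ha, hlt⟩ := LocQep.exists_of_away (hB c) hA
      obtain ⟨ϖ, hϖ⟩ := hU c
      obtain ⟨k, hk⟩ := LocQep.exists_pow_mul_mem hϖ hlt y
      refine ⟨a ^ k, fun h => ha (hpr.mem_of_pow_mem k h), ?_⟩
      rw [Subring.coe_pow]
      exact hk
  choose t ht1 ht2 using ht
  obtain ⟨a, s, hs, has⟩ := h1
  set T : chart A₀.toSubring x := ∏ c, t c with hTdef
  have hTn : T ∉ 𝔫 := by
    intro h
    obtain ⟨c, -, hc⟩ := (hpr.prod_mem_iff).1 h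
    exact ht1 c hc
  have hT : T * s ∉ 𝔫 := fun h => (hpr.mem_or_mem h).elim hTn hs
  have hy' : ((T * s : chart A₀.toSubring x) : F) * y ∈ chart A₀.toSubring x := by
    apply hqep
    · have e : (q : F) * (((T * s : chart A₀.toSubring x) : F) * y)
          = ((T * a : chart A₀.toSubring x) : F) := by
        push_cast
        rw [← has]
        ring
      rw [e]
      exact Subtype.property _
    · intro c
      have hsplit : T = t c * ∏ c' ∈ Finset.univ.erase c, t c' := by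
        rw [hTdef, Finset.mul_prod_erase _ _ (Finset.mem_univ c)]
      have e : ((T * s : chart A₀.toSubring x) : F) * y
          = (((∏ c' ∈ Finset.univ.erase c, t c') * s : chart A₀.toSubring x) : F) *
            ((t c : F) * y) := by
        rw [hsplit]
        push_cast
        ring
      rw [e]
      exact (V c).mul_mem _ _ (hB c _ (Subtype.property _)) (ht2 c)
  exact ⟨⟨_, hy'⟩, T * s, hT, mul_comm _ _⟩

/-- the local `q`-expansion principle at every closed point of the two charts. -/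
theorem QepFields.locQep [Finite κ] {x : F} (Q : QepFields A₀ q x V)
    (hU : ∀ c, ∃ ϖ : F, IsUnif (V c) ϖ) (hR : IsMPt A₀ q x R)
    (hta : ∀ c, Through R (V c) ∨ Away R (V c)) : LocQep q V R := by
  rcases hR with ⟨𝔫, h𝔫, -, rfl⟩ | ⟨𝔫, h𝔫, -, rfl⟩
  · exact qep_loc_ofK Q.chart_le₁ hU Q.qep₁ 𝔫 hta
  · exact qep_loc_ofK Q.chart_le₂ hU Q.qep₂ 𝔫 hta

/-- **The formal data at a closed point.** -/
structure PtBasic (A₀ : ValuationSubring K₀) (q : ℕ) (V : κ → ValuationSubring F) (R : Subring F) :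
    Prop where
  isPt : IsPt A₀ R
  ta : ∀ c, Through R (V c) ∨ Away R (V c)
  qep : LocQep q V R

/-- **Two embeddings** `ιa`, `ιb` (`f(z) ↦ f(z)`, `f(z) ↦ f(q^k z)`): what is needed on the table. -/
structure TwoEmb (A₀ : ValuationSubring K₀) (q : ℕ) (x₀ : F₀) (Ow : ValuationSubring F₀)
    (ιa ιb : F₀ →ₐ[K₀] F) (V : κ → ValuationSubring F) : Prop where
  base : BaseHyp A₀ q
  lvl0 : Lvl0 A₀ q x₀ Ow
  dg_a : dg (ιa : F₀ →+* F) ≠ 0
  dg_b : dg (ιb : F₀ →+* F) ≠ 0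
  comap_a : ∀ c, (V c).comap (ιa : F₀ →+* F) = Ow
  comap_b : ∀ c, (V c).comap (ιb : F₀ →+* F) = Ow
  complete_a : ∀ W : ValuationSubring F, W.comap (ιa : F₀ →+* F) = Ow → ∃ c, W = V c
  complete_b : ∀ W : ValuationSubring F, W.comap (ιb : F₀ →+* F) = Ow → ∃ c, W = V c
  inj : Function.Injective V
  unif : ∀ c, ∃ ϖ : F, IsUnif (V c) ϖ
  /-- the residue field of every component is that of level `0`, via `ιa` or via `ιb` -/
  dense : ∀ c, (∀ y ∈ V c, ∃ y' : F₀, (V c).valuation (ιa y' - y) < 1) ∨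
    (∀ y ∈ V c, ∃ y' : F₀, (V c).valuation (ιb y' - y) < 1)
  /-- the model built on `x₀(z)` and the model built on `x₀(q^k z)` have the same points -/
  sym_ab : ∀ R : Subring F, IsPt A₀ R → (ιa x₀ ∈ R ∨ (ιa x₀)⁻¹ ∈ R) →
    (ιb x₀ ∈ R ∨ (ιb x₀)⁻¹ ∈ R)
  sym_ba : ∀ R : Subring F, IsPt A₀ R → (ιb x₀ ∈ R ∨ (ιb x₀)⁻¹ ∈ R) →
    (ιa x₀ ∈ R ∨ (ιa x₀)⁻¹ ∈ R)

namespace TwoEmb

variable {ιa ιb : F₀ →ₐ[K₀] F}

theorem qepFields (D : TwoEmb A₀ q x₀ Ow ιa ιb V) : QepFields A₀ q (ιa x₀) V :=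
  qepFields_of D.lvl0 ιa D.dg_a D.comap_a D.complete_a

theorem qepFields_b (D : TwoEmb A₀ q x₀ Ow ιa ιb V) : QepFields A₀ q (ιb x₀) V :=
  qepFields_of D.lvl0 ιb D.dg_b D.comap_b D.complete_b

theorem isMPt_b (D : TwoEmb A₀ q x₀ Ow ιa ιb V) (hR : IsMPt A₀ q (ιa x₀) R) :
    IsMPt A₀ q (ιb x₀) R :=
  isMPt_change D.base D.qepFields.transc D.qepFields.finite D.qepFields_b.transc
    D.qepFields_b.finite D.sym_ab D.sym_ba hR

theorem through_or_away [Finite κ] (D : TwoEmb A₀ q x₀ Ow ιa ιb V)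
    (hR : IsMPt A₀ q (ιa x₀) R) (c : κ) : Through R (V c) ∨ Away R (V c) := by
  rcases D.dense c with h | h
  · exact through_or_away_ofK D.lvl0 ιa D.dg_a D.comap_a D.complete_a D.inj D.unif c h hR
  · exact through_or_away_ofK D.lvl0 ιb D.dg_b D.comap_b D.complete_b D.inj D.unif c h
      (D.isMPt_b hR)

/-- **The formal data at every closed point of the two charts of `ιa x₀`.** -/
theorem ptBasic [Finite κ] (D : TwoEmb A₀ q x₀ Ow ιa ιb V) (hR : IsMPt A₀ q (ιa x₀) R) :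
    PtBasic A₀ q V R where
  isPt := hR.isPt D.base D.qepFields.transc D.qepFields.finite
  ta := D.through_or_away hR
  qep := D.qepFields.locQep D.unif hR (D.through_or_away hR)

end TwoEmb

end Fermat.Agent.S45.Ind

end
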